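import Fermat.Agent.PIC.AffineSections
import Fermat.Agent.PIC.SecHom

/-!
# Morphisms of sheaves over an affine open are given by linear maps of sections

`secHomOf` is the morphism over an affine open with a prescribed map of sections, determined by it
(`SecHom.ext_of_affine`).
-/

set_option autoImplicit false

universe u

open CategoryTheory AlgebraicGeometry TopologicalSpace

namespace Fermat.PIC

noncomputable section

variable {X : Scheme.{u}} {W : X.Opens} (hW : IsAffineOpen W)

variable {R : CommRingCat.{u}}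

/-- A morphism out of an invertible sheaf on a spectrum with prescribed global sections. -/
theorem exists_hom_of_ΓMap {M N : (Spec R).Modules} (hM : Scheme.Modules.IsInvertible M)
    (l : (moduleSpecΓFunctor (R := R)).obj M →ₗ[R] (moduleSpecΓFunctor (R := R)).obj N) :
    ∃ θ : M ⟶ N, ∀ z, (moduleSpecΓFunctor (R := R)).map θ z = l z := by
  have := isInvertible_isQuasicoherent hM
  have : IsIso ((tilde.adjunction (R := R)).counit.app M) :=
    (Scheme.Modules.isIso_fromTildeΓ_of_isQuasicoherent (R := R) M)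
  let lh : (moduleSpecΓFunctor (R := R)).obj M ⟶ (moduleSpecΓFunctor (R := R)).obj N :=
    ConcreteCategory.ofHom (C := ModuleCat R) l
  refine ⟨inv ((tilde.adjunction (R := R)).counit.app M) ≫
    ((tilde.adjunction (R := R)).homEquiv _ N).symm lh, fun z ↦ ?_⟩
  suffices hh : (moduleSpecΓFunctor (R := R)).map _ = lh from congr($hh z)
  rw [Functor.map_comp, Functor.map_inv, IsIso.inv_comp_eq]
  have h := ((tilde.adjunction (R := R)).homEquiv _ N).apply_symm_apply lh
  rw [Adjunction.homEquiv_unit] at h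
  rw [← cancel_epi ((tilde.adjunction (R := R)).unit.app _),
    (tilde.adjunction (R := R)).right_triangle_components_assoc]
  exact h

/-- Such a morphism is determined by its global sections. -/
theorem hom_ext_of_ΓMap {M N : (Spec R).Modules} (hM : Scheme.Modules.IsInvertible M)
    {θ θ' : M ⟶ N}
    (h : (moduleSpecΓFunctor (R := R)).map θ = (moduleSpecΓFunctor (R := R)).map θ') : θ = θ' := by
  have := isInvertible_isQuasicoherent hM
  have : IsIso ((tilde.adjunction (R := R)).counit.app M) :=
    (Scheme.Modules.isIso_fromTildeΓ_of_isQuasicoherent (R := R) M)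
  rw [← cancel_epi ((tilde.adjunction (R := R)).counit.app M)]
  apply ((tilde.adjunction (R := R)).homEquiv _ N).injective
  rw [Adjunction.homEquiv_unit, Adjunction.homEquiv_unit, Functor.map_comp, Functor.map_comp, h]

variable {M N K : X.Modules}

/-- The morphism over an affine open with prescribed map of sections. -/
theorem exists_specHomOfLinear
    (hM : Scheme.Modules.IsInvertible ((Scheme.Modules.pullback hW.fromSpec).obj M))
    (l : Γ(M, W) →ₗ[Γ(X, W)] Γ(N, W)) :
    ∃ θ : (Scheme.Modules.pullback hW.fromSpec).obj M ⟶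
        (Scheme.Modules.pullback hW.fromSpec).obj N,
      ∀ x, θ.app (hW.fromSpec ⁻¹ᵁ W) (sPull hW.fromSpec M W x) =
        sPull hW.fromSpec N W (l x) := by
  let l' : (moduleSpecΓFunctor (R := Γ(X, W))).obj
    ((Scheme.Modules.pullback hW.fromSpec).obj M) →ₗ[Γ(X, W)]
      (moduleSpecΓFunctor (R := Γ(X, W))).obj ((Scheme.Modules.pullback hW.fromSpec).obj N) :=
    (topEquiv hW N).toLinearMap ∘ₗ l ∘ₗ (topEquiv hW M).symm.toLinearMap
  obtain ⟨θ, hθ⟩ := exists_hom_of_ΓMap (R := Γ(X, W)) hM l'
  refine ⟨θ, fun x ↦ ?_⟩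
  have h := hθ (topEquiv hW M x)
  simp only [l', LinearMap.coe_comp, LinearEquiv.coe_coe, Function.comp_apply,
    LinearEquiv.symm_apply_apply] at h
  have h' : θ.app ⊤ (topEquiv hW M x) = topEquiv hW N (l x) := h
  rw [topEquiv_apply, topEquiv_apply, app_sRes] at h'
  have := congrArg (sRes _ (le_top (a := hW.fromSpec ⁻¹ᵁ W))) h'
  rwa [sRes_sRes, sRes_sRes, sRes_self, sRes_self] at this

/-- The morphism over an affine open with prescribed map of sections. -/
def secHomOf (hM : Scheme.Modules.IsInvertible ((Scheme.Modules.pullback hW.fromSpec).obj M))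
    (l : Γ(M, W) →ₗ[Γ(X, W)] Γ(N, W)) : SecHom M N W :=
  (SecHom.ofPullback hW.fromSpec (exists_specHomOfLinear hW hM l).choose).restrict
    hW.opensRange_fromSpec.ge

/-- The morphism of a linear map is that map on the affine open itself. -/
lemma secHomOf_app_self
    (hM : Scheme.Modules.IsInvertible ((Scheme.Modules.pullback hW.fromSpec).obj M))
    (l : Γ(M, W) →ₗ[Γ(X, W)] Γ(N, W)) (x : Γ(M, W)) :
    (secHomOf hW hM l).app W le_rfl x = l x := by
  apply (sPull_fromSpec_bijective hW N le_rfl).1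
  rw [secHomOf, SecHom.restrict_app, SecHom.sPull_ofPullback]
  exact (exists_specHomOfLinear hW hM l).choose_spec x

/-- A left inverse map of sections gives a left inverse morphism on every smaller open. -/
lemma secHomOf_comp_app
    (hM : Scheme.Modules.IsInvertible ((Scheme.Modules.pullback hW.fromSpec).obj M))
    (hN : Scheme.Modules.IsInvertible ((Scheme.Modules.pullback hW.fromSpec).obj N))
    (l : Γ(M, W) →ₗ[Γ(X, W)] Γ(N, W)) (l' : Γ(N, W) →ₗ[Γ(X, W)] Γ(M, W))
    (h : ∀ x, l' (l x) = x) (V : X.Opens) (hV : V ≤ W) (x : Γ(M, V)) :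
    (secHomOf hW hN l').app V hV ((secHomOf hW hM l).app V hV x) = x := by
  apply (sPull_fromSpec_bijective hW M hV).1
  rw [secHomOf, SecHom.restrict_app, SecHom.sPull_ofPullback, secHomOf, SecHom.restrict_app,
    SecHom.sPull_ofPullback]
  set θ := (exists_specHomOfLinear hW hM l).choose with hθ
  set θ' := (exists_specHomOfLinear hW hN l').choose with hθ'
  have hid : θ ≫ θ' = 𝟙 _ := by
    refine hom_ext_of_ΓMap hM ?_
    ext z
    obtain ⟨y, rfl⟩ := (topEquiv hW M).surjective z
    change θ'.app ⊤ (θ.app ⊤ (topEquiv hW M y)) = topEquiv hW M y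
    rw [topEquiv_apply, app_sRes, (exists_specHomOfLinear hW hM l).choose_spec, app_sRes,
      (exists_specHomOfLinear hW hN l').choose_spec, h]
  exact congr($(congrArg (fun φ : (Scheme.Modules.pullback hW.fromSpec).obj M ⟶
    (Scheme.Modules.pullback hW.fromSpec).obj M ↦ φ.app (hW.fromSpec ⁻¹ᵁ V)) hid)
    (sPull hW.fromSpec M V x))

/-- Around every point there is a principal open of an affine open with a generator. -/
lemma exists_isGen_basicOpen (hM : Scheme.Modules.IsInvertible M) (hW : IsAffineOpen W)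
    {x : X} (hx : x ∈ W) :
    ∃ (g : Γ(X, W)) (s : Γ(M, X.basicOpen g)), x ∈ X.basicOpen g ∧ IsGen M (X.basicOpen g) s := by
  obtain ⟨U, s, hxU, hs⟩ := exists_isGen hM x
  obtain ⟨g, hg, hxg⟩ := hW.exists_basicOpen_le (V := U) ⟨x, hxU⟩ hx
  exact ⟨g, sRes M hg s, hxg, hs.mono hg⟩

/-- Morphisms over an affine open out of an invertible sheaf are determined by their sections. -/
theorem SecHom.ext_of_affine (hM : Scheme.Modules.IsInvertible M) (hW : IsAffineOpen W)
    {ψ ψ' : SecHom M N W} (h : ∀ x, ψ.app W le_rfl x = ψ'.app W le_rfl x) : ψ = ψ' := by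
  let ι : Type u := {g : Γ(X, W) // ∃ s : Γ(M, X.basicOpen g), IsGen M (X.basicOpen g) s}
  refine SecHom.ext_of_cover (fun g : ι ↦ X.basicOpen g.1) ?_ ?_
  · intro x hx
    obtain ⟨g, s, hxg, hs⟩ := exists_isGen_basicOpen hM hW hx
    exact Opens.mem_iSup.mpr ⟨⟨g, s, hs⟩, hxg⟩
  rintro ⟨g, s, hs⟩ V hV hVg x
  obtain ⟨c, hc⟩ := (hs V hVg).2 x
  simp only at hc
  rw [← hc, ψ.smul, ψ'.smul]
  congr 1
  obtain ⟨n, t, ht⟩ := exists_pow_smul_eq_sRes hM hW g s
  have hu : IsUnit (X.presheaf.map (homOfLE (X.basicOpen_le g)).op (g ^ n)) := by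
    rw [map_pow]
    exact (RingedSpace.isUnit_res_basicOpen _ g).pow n
  have key : ψ.app _ (X.basicOpen_le g) s = ψ'.app _ (X.basicOpen_le g) s := by
    refine (hu.smul_left_cancel).mp ?_
    rw [← ψ.smul, ← ψ'.smul, ← ht, ← ψ.res, ← ψ'.res, h]
    all_goals exact le_rfl
  rw [← ψ.res _ _ (X.basicOpen_le g) hVg, ← ψ'.res _ _ (X.basicOpen_le g) hVg, key]

end

end Fermat.PIC
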