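import Fermat.Agent.PIC.Bridge.HomOf

/-!
# Base change of the datum of an invertible sheaf

`bcOf`: a morphism of affine bases gives a base change of data, so all functoriality can be checked
on data.
-/

set_option autoImplicit false

universe u

open CategoryTheory CategoryTheory.Limits AlgebraicGeometry NeronModelInfra
open AlgebraicGeometry.RelPicard

namespace Fermat.PIC

noncomputable section

section General

variable {X Y Z : Scheme.{u}}

/-- Pullback commutes with restriction. -/
lemma sRes_sPullLE (f : X ⟶ Y) (L : Y.Modules) {U U' : Y.Opens} {V V' : X.Opens}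
    (e : V ≤ f ⁻¹ᵁ U) (e' : V' ≤ f ⁻¹ᵁ U') (hU : U' ≤ U) (hV : V' ≤ V) (x : Γ(L, U)) :
    sRes ((Scheme.Modules.pullback f).obj L) hV (sPullLE f L e x) =
      sPullLE f L e' (sRes L hU x) := by
  simp only [sPullLE, AddMonoidHom.coe_comp, Function.comp_apply, sPull_sRes, sRes_sRes]

/-- A spanning set still spans after transport along an isomorphism of rings. -/
lemma span_compHom_eq_top {R S P : Type u} [CommRing R] [CommRing S] [AddCommGroup P]
    [Module S P] (e : R ≃+* S) {s : Set P} (h : Submodule.span S s = ⊤) :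
    letI := Module.compHom P e.toRingHom
    Submodule.span R s = ⊤ := by
  let := Module.compHom P e.toRingHom
  rw [eq_top_iff]
  rintro p -
  have hp : p ∈ Submodule.span S s := h ▸ Submodule.mem_top
  induction hp using Submodule.span_induction with
  | mem x hx => exact Submodule.subset_span hx
  | zero => exact zero_mem _
  | add x y _ _ hx hy => exact add_mem hx hy
  | smul r x _ hx =>
    obtain ⟨a, rfl⟩ := e.surjective r
    exact Submodule.smul_mem _ a hx

end General

namespace CurveModel

variable {k : Type u} [Field k] {C : Scheme.{u}} {c : C ⟶ Spec (CommRingCat.of k)}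
  {ε : SchemeHomOver (𝟙 (Spec (CommRingCat.of k))) c} (M : CurveModel c ε)
  {B B' : Type u} [CommRing B] [Algebra k B] [CommRing B'] [Algebra k B']
  {L : (pullback c (specStr (k := k) B)).Modules} (hL : Scheme.Modules.IsInvertible L)

/-- The datum of the pullback is the base change of the datum. -/
def bcOf (φ : B →ₐ[k] B') :
    Datum.BC φ (M.datOf B L hL)
      (M.datOf B' ((Scheme.Modules.pullback (baseChangeSnd c (specHom φ))).obj L)
        (hL.pullback _)) where
  f0 := sPullLE (baseChangeSnd c (specHom φ)) L (M.preimage_W0 φ).ge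
  f1 := sPullLE (baseChangeSnd c (specHom φ)) L (M.preimage_W1 φ).ge
  f01 := sPullLE (baseChangeSnd c (specHom φ)) L (M.preimage_W01 φ).ge
  smul0 a p := (sPullLE_smul _ L _ (M.iso0 B a) ((M.sec0 B hL).symm p)).trans
    (congrArg (fun r ↦ r • sPullLE (baseChangeSnd c (specHom φ)) L (M.preimage_W0 φ).ge
      ((M.sec0 B hL).symm p)) (M.iso0_bc0 φ a))
  smul1 a p := (sPullLE_smul _ L _ (M.iso1 B a) ((M.sec1 B hL).symm p)).trans
    (congrArg (fun r ↦ r • sPullLE (baseChangeSnd c (specHom φ)) L (M.preimage_W1 φ).ge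
      ((M.sec1 B hL).symm p)) (M.iso1_bc1 φ a))
  smul01 a p := (sPullLE_smul _ L _ (M.iso01 B a) ((M.sec01 B hL).symm p)).trans
    (congrArg (fun r ↦ r • sPullLE (baseChangeSnd c (specHom φ)) L (M.preimage_W01 φ).ge
      ((M.sec01 B hL).symm p)) (M.iso01_bc01 φ a))
  comm0 p := sRes_sPullLE _ L _ (M.preimage_W01 φ).ge (M.W01_le_W0 B) (M.W01_le_W0 B')
    ((M.sec0 B hL).symm p)
  comm1 p := sRes_sPullLE _ L _ (M.preimage_W01 φ).ge (M.W01_le_W1 B) (M.W01_le_W1 B')
    ((M.sec1 B hL).symm p)
  span0 := span_compHom_eq_top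
    (P := Γ((Scheme.Modules.pullback (baseChangeSnd c (specHom φ))).obj L, M.W0 B')) (M.iso0 B')
    (sPullLE_span hL _ (M.isAffineOpen_W0 B) (M.isAffineOpen_W0 B') (M.preimage_W0 φ).ge)
  span1 := span_compHom_eq_top
    (P := Γ((Scheme.Modules.pullback (baseChangeSnd c (specHom φ))).obj L, M.W1 B')) (M.iso1 B')
    (sPullLE_span hL _ (M.isAffineOpen_W1 B) (M.isAffineOpen_W1 B') (M.preimage_W1 φ).ge)
  span01 := span_compHom_eq_top
    (P := Γ((Scheme.Modules.pullback (baseChangeSnd c (specHom φ))).obj L, M.W01 B')) (M.iso01 B')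
    (sPullLE_span hL _ (M.isAffineOpen_W01 B) (M.isAffineOpen_W01 B') (M.preimage_W01 φ).ge)

end CurveModel

end

end Fermat.PIC
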