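import Fermat.Agent.PIC.Curve.BaseChange
import Fermat.Agent.PIC.Bridge.AffineHom
import Fermat.Agent.PIC.Chart.Bounded

/-!
# The datum of an invertible sheaf on the curve over an affine base

With `HomOf` and `SheafOf` this is the dictionary between sheaves and data.
-/

set_option autoImplicit false

universe u

open CategoryTheory CategoryTheory.Limits AlgebraicGeometry NeronModelInfra

namespace Fermat.PIC

noncomputable section

/-- Invertibility transports along a ring isomorphism. -/
lemma invertible_compHom {R S : Type u} [CommRing R] [CommRing S] (e : R ≃+* S) (N : Type u)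
    [AddCommGroup N] [Module S N] [Module.Invertible S N] :
    letI := Module.compHom N e.toRingHom
    Module.Invertible R N := by
  let := Module.compHom N e.toRingHom
  let : Algebra S R := e.symm.toRingHom.toAlgebra
  have : IsScalarTower S R N := ⟨fun s r x ↦ by
    change e (e.symm s * r) • x = s • e r • x
    rw [map_mul, RingEquiv.apply_symm_apply, mul_smul]⟩
  have : IsLocalization (⊥ : Submonoid S) R := by
    have : IsLocalization (⊥ : Submonoid S) S := IsLocalization.self fun _ h ↦ by
      rw [Submonoid.mem_bot.mp h]; exact isUnit_one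
    exact IsLocalization.isLocalization_of_algEquiv (⊥ : Submonoid S)
      (AlgEquiv.ofBijective (Algebra.ofId S R) e.symm.bijective)
  have : IsLocalizedModule (⊥ : Submonoid S) (LinearMap.id : N →ₗ[S] N) :=
    { map_units := fun s ↦ by
        rw [Submonoid.mem_bot.mp s.2, map_one]; exact isUnit_one
      surj := fun y ↦ ⟨⟨y, 1⟩, one_smul _ _⟩
      exists_of_eq := fun h ↦ ⟨1, congrArg ((1 : (⊥ : Submonoid S)) • ·) h⟩ }
  exact Module.Invertible.of_isLocalization (A := R) (⊥ : Submonoid S) (LinearMap.id : N →ₗ[S] N)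

section Basic

variable {X : Scheme.{u}} {L : X.Modules} (hL : Scheme.Modules.IsInvertible L) {U V : X.Opens}
  (hU : IsAffineOpen U) (r : Γ(X, U)) (hV : V = X.basicOpen r) (hVU : V ≤ U)

include hL hU hV

/-- A section over a basic open extends after multiplication by a power of the function. -/
lemma exists_pow_smul_eq_sRes_of_eq (z : Γ(L, V)) :
    ∃ (n : ℕ) (p : Γ(L, U)), sRes L hVU p = X.presheaf.map (homOfLE hVU).op (r ^ n) • z := by
  subst hV
  exact exists_pow_smul_eq_sRes hL hU r z

/-- Restriction to the basic open of a regular element is injective. -/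
lemma sRes_injective_of_eq (hreg : ∀ p : Γ(L, U), r • p = 0 → p = 0) :
    Function.Injective (sRes L hVU) := by
  subst hV
  rw [injective_iff_map_eq_zero]
  intro p hp
  obtain ⟨n, hn⟩ := exists_pow_smul_eq_zero hL hU r p hp
  induction n with
  | zero => simpa using hn
  | succ n ih =>
    rw [pow_succ', mul_smul] at hn
    exact ih (hreg _ hn)

end Basic

namespace CurveModel

variable {k : Type u} [Field k] {C : Scheme.{u}} {c : C ⟶ Spec (CommRingCat.of k)}
  {ε : SchemeHomOver (𝟙 (Spec (CommRingCat.of k))) c} (M : CurveModel c ε)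
  (B : Type u) [CommRing B] [Algebra k B]

/-- The unit `x` on the overlap is the restriction of the first coordinate. -/
lemma iso01_xUnit :
    M.iso01 B (M.G.xUnit B : M.G.R01 B) = (pullback c (specStr (k := k) B)).presheaf.map
      (homOfLE (M.W01_le_W0 B)).op (M.iso0 B (M.G.X0 B)) :=
  M.iso01_ρ0 B _

/-- The inverse of `x` on the overlap is the restriction of the second coordinate. -/
lemma iso01_xUnit_inv :
    M.iso01 B (↑(M.G.xUnit B)⁻¹ : M.G.R01 B) = (pullback c (specStr (k := k) B)).presheaf.map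
      (homOfLE (M.W01_le_W1 B)).op (M.iso1 B (M.G.Y1 B)) :=
  M.iso01_ρ1 B _

/-- The datum of an invertible sheaf. -/
def datOf (L : (pullback c (specStr (k := k) B)).Modules) (hL : Scheme.Modules.IsInvertible L) :
    Datum M.G B :=
  letI m0 : Module (M.G.R0 B) Γ(L, M.W0 B) := Module.compHom _ (M.iso0 B).toRingHom
  letI m1 : Module (M.G.R1 B) Γ(L, M.W1 B) := Module.compHom _ (M.iso1 B).toRingHom
  letI m01 : Module (M.G.R01 B) Γ(L, M.W01 B) := Module.compHom _ (M.iso01 B).toRingHom
  letI b0 : Module B Γ(L, M.W0 B) := Module.compHom _ (algebraMap B (M.G.R0 B))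
  letI b1 : Module B Γ(L, M.W1 B) := Module.compHom _ (algebraMap B (M.G.R1 B))
  letI b01 : Module B Γ(L, M.W01 B) := Module.compHom _ (algebraMap B (M.G.R01 B))
  haveI t0 : IsScalarTower B (M.G.R0 B) Γ(L, M.W0 B) :=
    IsScalarTower.of_algebraMap_smul fun _ _ ↦ rfl
  haveI t1 : IsScalarTower B (M.G.R1 B) Γ(L, M.W1 B) :=
    IsScalarTower.of_algebraMap_smul fun _ _ ↦ rfl
  haveI i0 : Module.Invertible (M.G.R0 B) Γ(L, M.W0 B) :=
    haveI := invertible_sections hL (M.isAffineOpen_W0 B)
    invertible_compHom (M.iso0 B) _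
  haveI i1 : Module.Invertible (M.G.R1 B) Γ(L, M.W1 B) :=
    haveI := invertible_sections hL (M.isAffineOpen_W1 B)
    invertible_compHom (M.iso1 B) _
  haveI i01 : Module.Invertible (M.G.R01 B) Γ(L, M.W01 B) :=
    haveI := invertible_sections hL (M.isAffineOpen_W01 B)
    invertible_compHom (M.iso01 B) _
  { P0 := Γ(L, M.W0 B)
    P1 := Γ(L, M.W1 B)
    P01 := Γ(L, M.W01 B)
    tower01 := IsScalarTower.of_algebraMap_smul fun _ _ ↦ rfl
    r0 :=
      { toFun := sRes L (M.W01_le_W0 B)
        map_add' := map_add _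
        map_smul' := fun b p ↦ by
          change sRes L (M.W01_le_W0 B) (M.iso0 B (algebraMap B _ b) • p) =
            M.iso01 B (algebraMap B _ b) • sRes L (M.W01_le_W0 B) p
          rw [sRes_smul, ← M.iso01_ρ0 B, (M.G.ρ0 B).commutes] }
    r1 :=
      { toFun := sRes L (M.W01_le_W1 B)
        map_add' := map_add _
        map_smul' := fun b p ↦ by
          change sRes L (M.W01_le_W1 B) (M.iso1 B (algebraMap B _ b) • p) =
            M.iso01 B (algebraMap B _ b) • sRes L (M.W01_le_W1 B) p
          rw [sRes_smul, ← M.iso01_ρ1 B, (M.G.ρ1 B).commutes] }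
    r0_smul := fun a p ↦ by
      change sRes L (M.W01_le_W0 B) (M.iso0 B a • p) =
        M.iso01 B (M.G.ρ0 B a) • sRes L (M.W01_le_W0 B) p
      rw [sRes_smul, M.iso01_ρ0 B]
    r1_smul := fun a p ↦ by
      change sRes L (M.W01_le_W1 B) (M.iso1 B a • p) =
        M.iso01 B (M.G.ρ1 B a) • sRes L (M.W01_le_W1 B) p
      rw [sRes_smul, M.iso01_ρ1 B]
    -- restriction is injective, the functions `X` and `Y` being regular
    r0_inj := by
      refine sRes_injective_of_eq hL (M.isAffineOpen_W0 B) _ (M.W01_eq_basicOpen_X0 B)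
        (M.W01_le_W0 B) fun p hp ↦ ?_
      obtain ⟨T, hT, -⟩ := exists_divX_tensor M.G.finite0 M.G.injective0 B
      have hreg : IsRegular (M.G.X0 B) :=
        isLeftRegular_iff_isRegular.mp (Function.LeftInverse.injective (g := T) hT)
      exact (Module.Flat.isSMulRegular_of_isRegular (M := Γ(L, M.W0 B)) hreg)
        (show M.G.X0 B • p = M.G.X0 B • 0 by rw [smul_zero]; exact hp)
    r1_inj := by
      refine sRes_injective_of_eq hL (M.isAffineOpen_W1 B) _ (M.W01_eq_basicOpen_Y1 B)
        (M.W01_le_W1 B) fun p hp ↦ ?_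
      obtain ⟨T, hT, -⟩ := exists_divX_tensor M.G.finite1 M.G.injective1 B
      have hreg : IsRegular (M.G.Y1 B) :=
        isLeftRegular_iff_isRegular.mp (Function.LeftInverse.injective (g := T) hT)
      exact (Module.Flat.isSMulRegular_of_isRegular (M := Γ(L, M.W1 B)) hreg)
        (show M.G.Y1 B • p = M.G.Y1 B • 0 by rw [smul_zero]; exact hp)
    -- sections on `W01` are sections on `W0`, resp. `W1`, up to powers
    r0_surj := fun z ↦ by
      obtain ⟨n, p, hp⟩ := exists_pow_smul_eq_sRes_of_eq hL (M.isAffineOpen_W0 B) _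
        (M.W01_eq_basicOpen_X0 B) (M.W01_le_W0 B) z
      refine ⟨n, p, hp.trans ?_⟩
      change _ = M.iso01 B ((M.G.xUnit B : M.G.R01 B) ^ n) • z
      rw [map_pow, map_pow, iso01_xUnit]
    r1_surj := fun z ↦ by
      obtain ⟨n, p, hp⟩ := exists_pow_smul_eq_sRes_of_eq hL (M.isAffineOpen_W1 B) _
        (M.W01_eq_basicOpen_Y1 B) (M.W01_le_W1 B) z
      refine ⟨n, p, hp.trans ?_⟩
      change _ = M.iso01 B ((↑(M.G.xUnit B)⁻¹ : M.G.R01 B) ^ n) • z
      rw [map_pow, map_pow, iso01_xUnit_inv] }

end CurveModel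

end

end Fermat.PIC
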