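import Fermat.Agent.PIC.Global.Defs

/-!
# Rigidifiability over an affine base in terms of the datum

`nonempty_rig_iff`, used to read the rigidified Picard functor on data in `Global/Charts` and
`Proper/Main`.
-/

set_option autoImplicit false

universe u

open CategoryTheory CategoryTheory.Limits AlgebraicGeometry NeronModelInfra
open AlgebraicGeometry.RelPicard

namespace Fermat.PIC

noncomputable section

/-- A sheaf on an affine scheme whose global sections are free of rank one is trivial. -/
lemma nonempty_iso_unitMod_of_linearEquiv {X : Scheme.{u}} (hX : IsAffineOpen (⊤ : X.Opens))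
    {N : X.Modules} (hN : Scheme.Modules.IsInvertible N) (l : Γ(unitMod X, ⊤) ≃ₗ[Γ(X, ⊤)] Γ(N, ⊤)) :
    Nonempty (N ≅ unitMod X) := by
  have hO : Scheme.Modules.IsInvertible ((Scheme.Modules.pullback hX.fromSpec).obj (unitMod X)) :=
    (Scheme.Modules.isInvertible_unit _).pullback _
  have hN' := hN.pullback hX.fromSpec
  exact ⟨SecHom.toIso (secHomOf hX hN' l.symm.toLinearMap) (secHomOf hX hO l.toLinearMap)
    (SecHom.ext fun V hV x ↦ secHomOf_comp_app hX hN' hO _ _ (l.apply_symm_apply) V hV x)
    (SecHom.ext fun V hV x ↦ secHomOf_comp_app hX hO hN' _ _ (l.symm_apply_apply) V hV x)⟩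

namespace CurveModel

variable {k : Type u} [Field k] {C : Scheme.{u}} {c : C ⟶ Spec (CommRingCat.of k)}
  {ε : SchemeHomOver (𝟙 (Spec (CommRingCat.of k))) c} (M : CurveModel c ε)
  (B : Type u) [CommRing B] [Algebra k B]
  {L : (pullback c (specStr (k := k) B)).Modules} (hL : Scheme.Modules.IsInvertible L)

/-- Global sections of the structure sheaf of the base. -/
def topB : Γ(Spec (CommRingCat.of B), ⊤) ≃+* B :=
  (Scheme.ΓSpecIso (CommRingCat.of B)).commRingCatIsoToRingEquiv

/-- The value at the base point section of a section over the second chart. -/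
def rigVal : (M.datOf B L hL).P1 →+
    Γ((Scheme.Modules.pullback (rigSection c (specStr (k := k) B) ε)).obj L, ⊤) :=
  (sPullLE _ L (M.rigSection_preimage_W1 B).ge).comp (M.sec1 B hL).symm.toAddMonoidHom

/-- Taking values at the base point is semilinear along evaluation at the base point. -/
lemma rigVal_smul (a : M.G.R1 B) (p : (M.datOf B L hL).P1) :
    M.rigVal B hL (a • p) = (topB B).symm (M.G.εB B a) • M.rigVal B hL p := by
  have h := sPullLE_smul (rigSection c (specStr (k := k) B) ε) L (M.rigSection_preimage_W1 B).ge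
    (M.iso1 B a) ((M.sec1 B hL).symm p)
  rw [M.rigSection_iso1 B a] at h
  exact h

/-- The values at the base point span the sections over the base. -/
lemma rigVal_span : Submodule.span Γ(Spec (CommRingCat.of B), ⊤)
    (Set.range (M.rigVal B hL)) = ⊤ := by
  have h := sPullLE_span hL (rigSection c (specStr (k := k) B) ε) (M.isAffineOpen_W1 B)
    (isAffineOpen_top _) (M.rigSection_preimage_W1 B).ge
  rwa [show Set.range (M.rigVal B hL) = Set.range (sPullLE (rigSection c (specStr (k := k) B) ε) L
    (M.rigSection_preimage_W1 B).ge) from (M.sec1 B hL).symm.surjective.range_comp _]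

/-- A scalar of the base acts on values as its constant function acts on sections. -/
lemma rigVal_smul_top (b : Γ(Spec (CommRingCat.of B), ⊤)) (p : (M.datOf B L hL).P1) :
    b • M.rigVal B hL p = M.rigVal B hL (algebraMap B (M.G.R1 B) (topB B b) • p) := by
  rw [rigVal_smul, AlgHom.commutes, Algebra.algebraMap_self, RingHom.id_apply,
    RingEquiv.symm_apply_apply]

/-- Every section over the base is the value of one over the second chart. -/
lemma rigVal_surjective : Function.Surjective (M.rigVal B hL) := by
  intro z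
  have hz : z ∈ Submodule.span Γ(Spec (CommRingCat.of B), ⊤) (Set.range (M.rigVal B hL)) := by
    rw [rigVal_span]; trivial
  induction hz using Submodule.span_induction with
  | mem x hx => exact hx
  | zero => exact ⟨0, map_zero _⟩
  | add x y _ _ hx hy =>
    obtain ⟨p, rfl⟩ := hx
    obtain ⟨q, rfl⟩ := hy
    exact ⟨p + q, map_add _ _ _⟩
  | smul b x _ hx =>
    obtain ⟨p, rfl⟩ := hx
    exact ⟨_, (M.rigVal_smul_top B hL b p).symm⟩

/-- A sheaf on the curve over an affine base can be rigidified iff its datum is trivial at the base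
point. -/
theorem nonempty_rig_iff :
    Nonempty ((Scheme.Modules.pullback (rigSection c (specStr (k := k) B) ε)).obj L ≅ unitMod _) ↔
      (M.datOf B L hL).EpsTrivial := by
  constructor
  · rintro ⟨e⟩
    -- the trivialised value along the section, `ε`-semilinear
    let ψ : (M.datOf B L hL).P1 →+ B :=
      (topB B).toAddEquiv.toAddMonoidHom.comp
        ((e.hom.app ⊤).hom.comp (M.rigVal B hL))
    have hψ : ∀ (a : M.G.R1 B) (p), ψ (a • p) = M.G.εB B a * ψ p := fun a p ↦ by
      change topB B (e.hom.app ⊤ (M.rigVal B hL (a • p))) = _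
      rw [rigVal_smul, Scheme.Modules.Hom.app_smul]
      exact (map_mul (topB B) _ _).trans (congrArg (· * _) ((topB B).apply_symm_apply _))
    obtain ⟨p, hp⟩ : ∃ p, ψ p = 1 := by
      obtain ⟨p, hp⟩ := M.rigVal_surjective B hL (e.inv.app ⊤ (oneSec _ ⊤))
      refine ⟨p, ?_⟩
      change topB B (e.hom.app ⊤ (M.rigVal B hL p)) = 1
      rw [hp]
      refine (congrArg (topB B) ?_).trans (map_one (topB B))
      exact congr($(congrArg (fun φ : unitMod (Spec (CommRingCat.of B)) ⟶ _ ↦ φ.app ⊤) e.inv_hom_id)
        (oneSec _ ⊤))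
    let : Module (M.G.R1 B) B := Module.compHom B (M.G.εB B).toRingHom
    let π : M.G.R1 B →ₗ[M.G.R1 B] B :=
      { toFun := M.G.εB B
        map_add' := map_add _
        map_smul' := fun a x ↦ map_mul (M.G.εB B) a x }
    let ψl : (M.datOf B L hL).P1 →ₗ[M.G.R1 B] B :=
      { toFun := ψ
        map_add' := map_add _
        map_smul' := hψ }
    -- lift it through `ε` by projectivity
    obtain ⟨φ, hφ⟩ := Module.projective_lifting_property π ψl
      fun b ↦ ⟨algebraMap B (M.G.R1 B) b, (M.G.εB B).commutes b⟩
    exact ⟨p, φ, (LinearMap.congr_fun hφ p).trans hp⟩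
  · rintro ⟨p, φ, hp⟩
    let σ := rigSection c (specStr (k := k) B) ε
    let N := (Scheme.Modules.pullback σ).obj L
    have htop : IsAffineOpen (⊤ : (Spec (CommRingCat.of B)).Opens) := isAffineOpen_top _
    have : Module.Invertible Γ(Spec (CommRingCat.of B), ⊤) Γ(N, ⊤) :=
      invertible_sections (hL.pullback σ) htop
    -- conversely the value of `p` generates the pullback, by rank one
    let l : Γ(unitMod (Spec (CommRingCat.of B)), ⊤) →ₗ[Γ(Spec (CommRingCat.of B), ⊤)] Γ(N, ⊤) :=
      { toFun := fun r ↦ (show Γ(Spec (CommRingCat.of B), ⊤) from r) • M.rigVal B hL p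
        map_add' := fun r r' ↦ add_smul _ _ _
        map_smul' := fun r r' ↦ mul_smul _ _ _ }
    have hsurj : Function.Surjective l := fun z ↦ by
      obtain ⟨q, rfl⟩ := M.rigVal_surjective B hL z
      refine ⟨(topB B).symm (M.G.εB B (φ q)), ?_⟩
      change (topB B).symm (M.G.εB B (φ q)) • M.rigVal B hL p = M.rigVal B hL q
      obtain ⟨r, hr⟩ := (Module.Invertible.toModuleEnd_bijective (M.G.R1 B)
        (M.datOf B L hL).P1).2 ((LinearMap.id (R := M.G.R1 B)).smulRight p ∘ₗ φ)
      have hr' : ∀ x, r • x = φ x • p := fun x ↦ LinearMap.congr_fun hr x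
      have h1 : M.G.εB B r = 1 := by
        have h := congrArg (M.G.εB B ∘ φ) (hr' p)
        simpa [hp] using h
      have h2 := congrArg (M.rigVal B hL) (hr' q)
      rw [rigVal_smul, rigVal_smul, h1, map_one, one_smul] at h2
      exact h2.symm
    have : Module.Invertible Γ(Spec (CommRingCat.of B), ⊤)
        Γ(unitMod (Spec (CommRingCat.of B)), ⊤) :=
      inferInstanceAs (Module.Invertible Γ(Spec (CommRingCat.of B), ⊤)
        Γ(Spec (CommRingCat.of B), ⊤))
    exact nonempty_iso_unitMod_of_linearEquiv htop (hL.pullback σ)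
      (LinearEquiv.ofBijective l (Module.Invertible.bijective_of_surjective hsurj))

end CurveModel

end

end Fermat.PIC
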