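import Fermat.Agent.PIC.Bridge.DatumOf

/-!
# Morphisms of invertible sheaves from morphisms of data

`exists_hom_of_maps`, `hom_ext`, `exists_iso_of_equiv`: sheaves with equivalent data are isomorphic.
-/

set_option autoImplicit false

universe u

open CategoryTheory CategoryTheory.Limits AlgebraicGeometry NeronModelInfra

namespace Fermat.PIC

noncomputable section

section TwoOpens

variable {X : Scheme.{u}} {L L' : X.Modules} {U₀ U₁ : X.Opens}

/-- The two members of a cover, indexed by a type in the right universe. -/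
def pairOpens (U₀ U₁ : X.Opens) : ULift.{u} Bool → X.Opens := fun i ↦ bif i.down then U₁ else U₀

/-- Two opens covering everything cover each open. -/
lemma le_iSup_pairOpens (hcov : U₀ ⊔ U₁ = ⊤) (V : X.Opens) : V ≤ iSup (pairOpens U₀ U₁) := by
  refine le_trans le_top (hcov ▸ sup_le ?_ ?_)
  · exact le_iSup (pairOpens U₀ U₁) ⟨false⟩
  · exact le_iSup (pairOpens U₀ U₁) ⟨true⟩

/-- Morphisms out of an invertible sheaf agree if they agree on two affine opens covering. -/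
theorem hom_ext_of_two (hL : Scheme.Modules.IsInvertible L) (h₀ : IsAffineOpen U₀)
    (h₁ : IsAffineOpen U₁) (hcov : U₀ ⊔ U₁ = ⊤) {θ θ' : L ⟶ L'}
    (e₀ : ∀ p, θ.app U₀ p = θ'.app U₀ p) (e₁ : ∀ p, θ.app U₁ p = θ'.app U₁ p) : θ = θ' := by
  have s₀ : SecHom.ofHom θ U₀ = SecHom.ofHom θ' U₀ := SecHom.ext_of_affine hL h₀ e₀
  have s₁ : SecHom.ofHom θ U₁ = SecHom.ofHom θ' U₁ := SecHom.ext_of_affine hL h₁ e₁
  have s : SecHom.ofHom θ ⊤ = SecHom.ofHom θ' ⊤ := by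
    refine SecHom.ext_of_cover _ (le_iSup_pairOpens hcov ⊤) ?_
    rintro ⟨_ | _⟩ V hV hVi x
    · exact congrArg (fun ψ : SecHom L L' U₀ ↦ ψ.app V hVi x) s₀
    · exact congrArg (fun ψ : SecHom L L' U₁ ↦ ψ.app V hVi x) s₁
  ext V x
  exact congrArg (fun ψ : SecHom L L' ⊤ ↦ ψ.app V le_top x) s

/-- Gluing linear maps given on two affine opens and agreeing on the overlap. -/
theorem exists_hom_of_two (hL : Scheme.Modules.IsInvertible L) (h₀ : IsAffineOpen U₀)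
    (h₁ : IsAffineOpen U₁) (h₀₁ : IsAffineOpen (U₀ ⊓ U₁)) (hcov : U₀ ⊔ U₁ = ⊤)
    (l₀ : Γ(L, U₀) →ₗ[Γ(X, U₀)] Γ(L', U₀)) (l₁ : Γ(L, U₁) →ₗ[Γ(X, U₁)] Γ(L', U₁))
    (l₀₁ : Γ(L, U₀ ⊓ U₁) →ₗ[Γ(X, U₀ ⊓ U₁)] Γ(L', U₀ ⊓ U₁))
    (c₀ : ∀ p, sRes L' inf_le_left (l₀ p) = l₀₁ (sRes L inf_le_left p))
    (c₁ : ∀ p, sRes L' inf_le_right (l₁ p) = l₀₁ (sRes L inf_le_right p))
    (g₀ : ∀ z : Γ(L, U₀ ⊓ U₁), ∃ (v : Γ(X, U₀ ⊓ U₁)ˣ) (p : Γ(L, U₀)), sRes L inf_le_left p =
      (v : Γ(X, U₀ ⊓ U₁)) • z)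
    (g₁ : ∀ z : Γ(L, U₀ ⊓ U₁), ∃ (v : Γ(X, U₀ ⊓ U₁)ˣ) (p : Γ(L, U₁)), sRes L inf_le_right p =
      (v : Γ(X, U₀ ⊓ U₁)) • z) :
    ∃ θ : L ⟶ L', (∀ p, θ.app U₀ p = l₀ p) ∧ (∀ p, θ.app U₁ p = l₁ p) ∧
      ∀ z, θ.app (U₀ ⊓ U₁) z = l₀₁ z := by
  let ψ₀ : SecHom L L' U₀ := secHomOf h₀ (hL.pullback _) l₀
  let ψ₁ : SecHom L L' U₁ := secHomOf h₁ (hL.pullback _) l₁
  let φ : ∀ i, SecHom L L' (pairOpens U₀ U₁ i)
    | ⟨false⟩ => ψ₀
    | ⟨true⟩ => ψ₁
  -- both local maps restrict to `l₀₁`, so they glue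
  have a₀ : ∀ z, ψ₀.app (U₀ ⊓ U₁) inf_le_left z = l₀₁ z := by
    intro z
    obtain ⟨v, p, hp⟩ := g₀ z
    refine (IsUnit.smul_left_cancel v.isUnit).mp ?_
    rw [← ψ₀.smul, ← map_smul, ← hp, ← ψ₀.res _ _ le_rfl inf_le_left p, secHomOf_app_self, c₀]
  have a₁ : ∀ z, ψ₁.app (U₀ ⊓ U₁) inf_le_right z = l₀₁ z := by
    intro z
    obtain ⟨v, p, hp⟩ := g₁ z
    refine (IsUnit.smul_left_cancel v.isUnit).mp ?_
    rw [← ψ₁.smul, ← map_smul, ← hp, ← ψ₁.res _ _ le_rfl inf_le_right p, secHomOf_app_self, c₁]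
  have hov : ψ₀.restrict inf_le_left = ψ₁.restrict inf_le_right :=
    SecHom.ext_of_affine hL h₀₁ fun z ↦ (a₀ z).trans (a₁ z).symm
  have hφ : ∀ i j V (hi : V ≤ pairOpens U₀ U₁ i) (hj : V ≤ pairOpens U₀ U₁ j) x,
      (φ i).app V hi x = (φ j).app V hj x := by
    rintro ⟨_ | _⟩ ⟨_ | _⟩ V hi hj x
    · rfl
    · exact congrArg (fun ψ : SecHom L L' (U₀ ⊓ U₁) ↦ ψ.app V (le_inf hi hj) x) hov
    · exact (congrArg (fun ψ : SecHom L L' (U₀ ⊓ U₁) ↦ ψ.app V (le_inf hj hi) x) hov).symm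
    · rfl
  let G := SecHom.glue (pairOpens U₀ U₁) φ hφ (le_iSup_pairOpens hcov ⊤)
  refine ⟨G.toHom, fun p ↦ ?_, fun p ↦ ?_, fun z ↦ ?_⟩
  · rw [SecHom.toHom_app]
    exact (SecHom.glue_app _ φ hφ _ ⟨false⟩ U₀ le_top le_rfl p).trans (secHomOf_app_self _ _ _ _)
  · rw [SecHom.toHom_app]
    exact (SecHom.glue_app _ φ hφ _ ⟨true⟩ U₁ le_top le_rfl p).trans (secHomOf_app_self _ _ _ _)
  · rw [SecHom.toHom_app]
    exact (SecHom.glue_app _ φ hφ _ ⟨false⟩ _ le_top (inf_le_left : U₀ ⊓ U₁ ≤ U₀) z).trans (a₀ z)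

end TwoOpens

namespace CurveModel

variable {k : Type u} [Field k] {C : Scheme.{u}} {c : C ⟶ Spec (CommRingCat.of k)}
  {ε : SchemeHomOver (𝟙 (Spec (CommRingCat.of k))) c} (M : CurveModel c ε)
  (B : Type u) [CommRing B] [Algebra k B]
  {L L' : (pullback c (specStr (k := k) B)).Modules}

/-- Sections over the first chart. -/
def sec0 (hL : Scheme.Modules.IsInvertible L) : Γ(L, M.W0 B) ≃+ (M.datOf B L hL).P0 :=
  AddEquiv.refl _

/-- Sections over the second chart. -/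
def sec1 (hL : Scheme.Modules.IsInvertible L) : Γ(L, M.W1 B) ≃+ (M.datOf B L hL).P1 :=
  AddEquiv.refl _

/-- Sections over the overlap. -/
def sec01 (hL : Scheme.Modules.IsInvertible L) : Γ(L, M.W01 B) ≃+ (M.datOf B L hL).P01 :=
  AddEquiv.refl _

variable (hL : Scheme.Modules.IsInvertible L) (hL' : Scheme.Modules.IsInvertible L')

/-- Sections over the first chart respect the module structures. -/
lemma sec0_smul (a : M.G.R0 B) (p : Γ(L, M.W0 B)) :
    M.sec0 B hL (M.iso0 B a • p) = a • M.sec0 B hL p := rfl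

/-- Sections over the second chart respect the module structures. -/
lemma sec1_smul (a : M.G.R1 B) (p : Γ(L, M.W1 B)) :
    M.sec1 B hL (M.iso1 B a • p) = a • M.sec1 B hL p := rfl

/-- Sections over the overlap respect the module structures. -/
lemma sec01_smul (a : M.G.R01 B) (p : Γ(L, M.W01 B)) :
    M.sec01 B hL (M.iso01 B a • p) = a • M.sec01 B hL p := rfl

/-- A morphism of data gives a morphism of sheaves. -/
theorem exists_hom_of_maps (f0 : (M.datOf B L hL).P0 →ₗ[M.G.R0 B] (M.datOf B L' hL').P0)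
    (f1 : (M.datOf B L hL).P1 →ₗ[M.G.R1 B] (M.datOf B L' hL').P1)
    (f01 : (M.datOf B L hL).P01 →ₗ[M.G.R01 B] (M.datOf B L' hL').P01)
    (c0 : ∀ p, (M.datOf B L' hL').r0 (f0 p) = f01 ((M.datOf B L hL).r0 p))
    (c1 : ∀ p, (M.datOf B L' hL').r1 (f1 p) = f01 ((M.datOf B L hL).r1 p)) :
    ∃ θ : L ⟶ L', (∀ p, M.sec0 B hL' (θ.app (M.W0 B) p) = f0 (M.sec0 B hL p)) ∧
      (∀ p, M.sec1 B hL' (θ.app (M.W1 B) p) = f1 (M.sec1 B hL p)) ∧
      ∀ p, M.sec01 B hL' (θ.app (M.W01 B) p) = f01 (M.sec01 B hL p) := by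
  -- the maps of sections over the two charts and over their overlap
  let l0 : Γ(L, M.W0 B) →ₗ[Γ(pullback c (specStr (k := k) B), M.W0 B)] Γ(L', M.W0 B) :=
    { toFun := fun p ↦ (M.sec0 B hL').symm (f0 (M.sec0 B hL p))
      map_add' := fun p q ↦ by simp only [map_add]
      map_smul' := fun r p ↦ by
        obtain ⟨a, rfl⟩ := (M.iso0 B).surjective r
        apply (M.sec0 B hL').injective
        simp only [RingHom.id_apply, AddEquiv.apply_symm_apply, sec0_smul, map_smul] }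
  let l1 : Γ(L, M.W1 B) →ₗ[Γ(pullback c (specStr (k := k) B), M.W1 B)] Γ(L', M.W1 B) :=
    { toFun := fun p ↦ (M.sec1 B hL').symm (f1 (M.sec1 B hL p))
      map_add' := fun p q ↦ by simp only [map_add]
      map_smul' := fun r p ↦ by
        obtain ⟨a, rfl⟩ := (M.iso1 B).surjective r
        apply (M.sec1 B hL').injective
        simp only [RingHom.id_apply, AddEquiv.apply_symm_apply, sec1_smul, map_smul] }
  let l01 : Γ(L, M.W01 B) →ₗ[Γ(pullback c (specStr (k := k) B), M.W01 B)] Γ(L', M.W01 B) :=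
    { toFun := fun p ↦ (M.sec01 B hL').symm (f01 (M.sec01 B hL p))
      map_add' := fun p q ↦ by simp only [map_add]
      map_smul' := fun r p ↦ by
        obtain ⟨a, rfl⟩ := (M.iso01 B).surjective r
        apply (M.sec01 B hL').injective
        simp only [RingHom.id_apply, AddEquiv.apply_symm_apply, sec01_smul, map_smul] }
  -- they agree on the overlap, where sections are fractions of those of a chart
  obtain ⟨θ, h0, h1, h01⟩ := exists_hom_of_two hL (M.isAffineOpen_W0 B) (M.isAffineOpen_W1 B)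
    (M.isAffineOpen_W01 B) (M.W0_sup_W1 B) l0 l1 l01
    (fun p ↦ (M.sec01 B hL').injective (c0 (M.sec0 B hL p)))
    (fun p ↦ (M.sec01 B hL').injective (c1 (M.sec1 B hL p)))
    (fun z ↦ by
      obtain ⟨n, p, hp⟩ := (M.datOf B L hL).r0_surj (M.sec01 B hL z)
      exact ⟨Units.map (M.iso01 B).toRingHom.toMonoidHom (M.G.xUnit B ^ n), p,
        hp.trans (by rw [← Units.val_pow_eq_pow_val]; rfl)⟩)
    (fun z ↦ by
      obtain ⟨n, p, hp⟩ := (M.datOf B L hL).r1_surj (M.sec01 B hL z)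
      exact ⟨Units.map (M.iso01 B).toRingHom.toMonoidHom ((M.G.xUnit B)⁻¹ ^ n), p,
        hp.trans (by rw [← Units.val_pow_eq_pow_val]; rfl)⟩)
  exact ⟨θ, fun p ↦ congrArg (M.sec0 B hL') (h0 p), fun p ↦ congrArg (M.sec1 B hL') (h1 p),
    fun p ↦ congrArg (M.sec01 B hL') (h01 p)⟩

include hL in
/-- A morphism is determined by its effect on the two charts. -/
theorem hom_ext {θ θ' : L ⟶ L'} (e0 : ∀ p, θ.app (M.W0 B) p = θ'.app (M.W0 B) p)
    (e1 : ∀ p, θ.app (M.W1 B) p = θ'.app (M.W1 B) p) : θ = θ' :=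
  hom_ext_of_two hL (M.isAffineOpen_W0 B) (M.isAffineOpen_W1 B) (M.W0_sup_W1 B) e0 e1

/-- An isomorphism of data gives an isomorphism of sheaves. -/
theorem exists_iso_of_equiv (e : Datum.Equiv (M.datOf B L hL) (M.datOf B L' hL')) :
    ∃ θ : L ≅ L', (∀ p, M.sec0 B hL' (θ.hom.app (M.W0 B) p) = e.e0 (M.sec0 B hL p)) ∧
      (∀ p, M.sec1 B hL' (θ.hom.app (M.W1 B) p) = e.e1 (M.sec1 B hL p)) ∧
      ∀ p, M.sec01 B hL' (θ.hom.app (M.W01 B) p) = e.e01 (M.sec01 B hL p) := by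
  obtain ⟨θ, a0, a1, a01⟩ := M.exists_hom_of_maps B hL hL' e.e0.toLinearMap e.e1.toLinearMap
    e.e01.toLinearMap e.comm0 e.comm1
  obtain ⟨η, b0, b1, -⟩ := M.exists_hom_of_maps B hL' hL e.symm.e0.toLinearMap
    e.symm.e1.toLinearMap e.symm.e01.toLinearMap e.symm.comm0 e.symm.comm1
  have i1 : θ ≫ η = 𝟙 L := by
    refine M.hom_ext B hL (fun p ↦ ?_) fun p ↦ ?_
    · apply (M.sec0 B hL).injective
      change M.sec0 B hL (η.app _ (θ.app _ p)) = M.sec0 B hL p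
      rw [b0, a0]
      exact e.e0.symm_apply_apply _
    · apply (M.sec1 B hL).injective
      change M.sec1 B hL (η.app _ (θ.app _ p)) = M.sec1 B hL p
      rw [b1, a1]
      exact e.e1.symm_apply_apply _
  have i2 : η ≫ θ = 𝟙 L' := by
    refine M.hom_ext B hL' (fun p ↦ ?_) fun p ↦ ?_
    · apply (M.sec0 B hL').injective
      change M.sec0 B hL' (θ.app _ (η.app _ p)) = M.sec0 B hL' p
      rw [a0, b0]
      exact e.e0.apply_symm_apply _
    · apply (M.sec1 B hL').injective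
      change M.sec1 B hL' (θ.app _ (η.app _ p)) = M.sec1 B hL' p
      rw [a1, b1]
      exact e.e1.apply_symm_apply _
  exact ⟨⟨θ, η, i1, i2⟩, a0, a1, a01⟩

variable {hL hL'}

/-- Isomorphic sheaves have isomorphic data. -/
def datOfIso (e : L ≅ L') : Datum.Equiv (M.datOf B L hL) (M.datOf B L' hL') where
  e0 :=
    { toFun := fun p ↦ M.sec0 B hL' (e.hom.app _ ((M.sec0 B hL).symm p))
      invFun := fun p ↦ M.sec0 B hL (e.inv.app _ ((M.sec0 B hL').symm p))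
      map_add' := fun p q ↦ by simp only [map_add]
      map_smul' := fun a p ↦ (congrArg (M.sec0 B hL')
        (Scheme.Modules.Hom.app_smul e.hom (M.iso0 B a) ((M.sec0 B hL).symm p)))
      left_inv := fun p ↦ congr($(congrArg (fun φ : L ⟶ L ↦ φ.app (M.W0 B)) e.hom_inv_id) p)
      right_inv := fun p ↦ congr($(congrArg (fun φ : L' ⟶ L' ↦ φ.app (M.W0 B)) e.inv_hom_id) p) }
  e1 :=
    { toFun := fun p ↦ M.sec1 B hL' (e.hom.app _ ((M.sec1 B hL).symm p))
      invFun := fun p ↦ M.sec1 B hL (e.inv.app _ ((M.sec1 B hL').symm p))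
      map_add' := fun p q ↦ by simp only [map_add]
      map_smul' := fun a p ↦ (congrArg (M.sec1 B hL')
        (Scheme.Modules.Hom.app_smul e.hom (M.iso1 B a) ((M.sec1 B hL).symm p)))
      left_inv := fun p ↦ congr($(congrArg (fun φ : L ⟶ L ↦ φ.app (M.W1 B)) e.hom_inv_id) p)
      right_inv := fun p ↦ congr($(congrArg (fun φ : L' ⟶ L' ↦ φ.app (M.W1 B)) e.inv_hom_id) p) }
  e01 :=
    { toFun := fun p ↦ M.sec01 B hL' (e.hom.app _ ((M.sec01 B hL).symm p))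
      invFun := fun p ↦ M.sec01 B hL (e.inv.app _ ((M.sec01 B hL').symm p))
      map_add' := fun p q ↦ by simp only [map_add]
      map_smul' := fun a p ↦ (congrArg (M.sec01 B hL')
        (Scheme.Modules.Hom.app_smul e.hom (M.iso01 B a) ((M.sec01 B hL).symm p)))
      left_inv := fun p ↦ congr($(congrArg (fun φ : L ⟶ L ↦ φ.app (M.W01 B)) e.hom_inv_id) p)
      right_inv := fun p ↦ congr($(congrArg (fun φ : L' ⟶ L' ↦ φ.app (M.W01 B)) e.inv_hom_id) p) }
  comm0 p := (app_sRes e.hom (M.W01_le_W0 B) ((M.sec0 B hL).symm p)).symm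
  comm1 p := (app_sRes e.hom (M.W01_le_W1 B) ((M.sec1 B hL).symm p)).symm

/-- The datum of the structure sheaf is trivial. -/
def datOfUnit : Datum.Equiv (Datum.trivial M.G B) (M.datOf B (unitMod _)
    (Scheme.Modules.isInvertible_unit _)) where
  e0 := { (M.iso0 B).toAddEquiv with map_smul' := fun a z ↦ map_mul (M.iso0 B) a z }
  e1 := { (M.iso1 B).toAddEquiv with map_smul' := fun a z ↦ map_mul (M.iso1 B) a z }
  e01 := { (M.iso01 B).toAddEquiv with map_smul' := fun a z ↦ map_mul (M.iso01 B) a z }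
  comm0 p := (M.iso01_ρ0 B p).symm
  comm1 p := (M.iso01_ρ1 B p).symm

end CurveModel

end

end Fermat.PIC
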