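import Fermat.Agent.PIC.GlueModules

/-!
# The sheaf of a module over an affine open, pushed forward to the scheme

`pushMod` is this sheaf; `exists_isGen_pushMod` gives it generators near the points of the open.
-/

set_option autoImplicit false

universe u

open CategoryTheory AlgebraicGeometry TopologicalSpace

namespace Fermat.PIC

noncomputable section

/-- Invertibility is invariant under isomorphism. -/
lemma isInvertible_of_isoMod {X : Scheme.{u}} {M N : X.Modules} (e : M ≅ N)
    (h : Scheme.Modules.IsInvertible M) : Scheme.Modules.IsInvertible N :=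
  ⟨fun x ↦ by
    obtain ⟨U, hx, ⟨f⟩⟩ := h.exists_trivialization x
    exact ⟨U, hx, ⟨(Scheme.Modules.pullback U.ι).mapIso e.symm ≪≫ f⟩⟩⟩

/-- A sheaf with generators near every point is invertible. -/
theorem isInvertible_of_isGen {X : Scheme.{u}} {M : X.Modules}
    (h : ∀ x : X, ∃ (U : X.Opens) (s : Γ(M, U)), x ∈ U ∧ IsGen M U s) :
    Scheme.Modules.IsInvertible M := by
  refine ⟨fun x ↦ ?_⟩
  obtain ⟨U, s, hx, hs⟩ := h x
  have hi := (isGen_sPull_iff_of_isOpenImmersion U.ι M U.opensRange_ι.ge s).mp hs
  let t : Γ((Scheme.Modules.pullback U.ι).obj M, ⊤) :=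
    sRes _ (show (⊤ : U.toScheme.Opens) ≤ U.ι ⁻¹ᵁ U from U.ι_preimage_self.ge)
      (sPull U.ι M U s)
  have : IsIso (homOfSec _ t) := isIso_homOfSec (hi.mono _)
  exact ⟨U, hx, ⟨(@asIso _ _ _ _ (homOfSec _ t) this).symm⟩⟩

variable {X : Scheme.{u}} {W : X.Opens} (hW : IsAffineOpen W)
  (P : Type u) [AddCommGroup P] [Module Γ(X, W) P]

/-- The sheaf of a module over the ring of an affine open, on its spectrum. -/
abbrev specMod : (Spec Γ(X, W)).Modules := tilde (ModuleCat.of Γ(X, W) P)

/-- The sheaf of a module over the ring of an affine open, pushed forward. -/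
def pushMod : X.Modules := (Scheme.Modules.pushforward hW.fromSpec).obj (specMod P)

/-- The sections of the pushforward are sections of the original sheaf. -/
def pushSec (V : X.Opens) : Γ(pushMod hW P, V) ≃+ Γ(specMod (W := W) P, hW.fromSpec ⁻¹ᵁ V) :=
  AddEquiv.refl _

/-- The identification of sections of the pushforward is semilinear. -/
lemma pushSec_smul (V : X.Opens) (r : Γ(X, V)) (m : Γ(pushMod hW P, V)) :
    pushSec hW P V (r • m) = hW.fromSpec.app V r • pushSec hW P V m := rfl

/-- The identification of sections of the pushforward commutes with restriction. -/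
lemma pushSec_sRes {V V' : X.Opens} (h : V' ≤ V) (m : Γ(pushMod hW P, V)) :
    pushSec hW P V' (sRes (pushMod hW P) h m) =
      sRes (specMod (W := W) P) (hW.fromSpec.preimage_mono h) (pushSec hW P V m) := rfl

/-- Inside the affine open the identification is linear over its functions. -/
lemma pushSec_res_smul {V : X.Opens} (h : V ≤ W) (a : Γ(X, W)) (m : Γ(pushMod hW P, V)) :
    pushSec hW P V (X.presheaf.map (homOfLE h).op a • m) = a • pushSec hW P V m := by
  rw [pushSec_smul, Scheme.Modules.smul_Spec_def]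
  congr 1
  refine (congr($(hW.fromSpec.naturality (homOfLE h).op) a)).trans ?_
  simp only [CommRingCat.hom_comp, RingHom.coe_comp, Function.comp_apply]
  rw [hW.fromSpec_app_self]
  simp only [CommRingCat.hom_comp, RingHom.coe_comp, Function.comp_apply]
  exact (congr($((Spec Γ(X, W)).presheaf.map_comp (eqToHom hW.fromSpec_preimage_self).op
    ((Opens.map hW.fromSpec.base).map (homOfLE h)).op) ((Scheme.ΓSpecIso Γ(X, W)).inv a))).symm

/-- The canonical map to sections. -/
def toSpecSec (O : (Spec Γ(X, W)).Opens) : P →ₗ[Γ(X, W)] Γ(specMod (W := W) P, O) :=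
  (tilde.toOpen (ModuleCat.of Γ(X, W) P) O).hom

/-- The canonical maps commute with restriction. -/
lemma toSpecSec_res {O O' : (Spec Γ(X, W)).Opens} (h : O' ≤ O) (p : P) :
    sRes (specMod (W := W) P) h (toSpecSec P O p) = toSpecSec P O' p :=
  congr($(tilde.toOpen_res (ModuleCat.of Γ(X, W) P) O O' (homOfLE h)) p)

/-- The canonical map to the global sections is bijective. -/
lemma toSpecSec_bijective {O : (Spec Γ(X, W)).Opens} (h : O = ⊤) :
    Function.Bijective (toSpecSec P O) := by
  subst h
  exact ConcreteCategory.bijective_of_isIso (tilde.toOpen (ModuleCat.of Γ(X, W) P) ⊤)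

/-- The canonical map to a basic open is the localisation. -/
lemma isLocalizedModule_toSpecSec {O : (Spec Γ(X, W)).Opens} {r : Γ(X, W)}
    (h : O = PrimeSpectrum.basicOpen r) :
    IsLocalizedModule (Submonoid.powers r) (toSpecSec P O) := by
  subst h
  exact IsLocalizedModule.of_linearEquiv (Submonoid.powers r)
    (StructureSheaf.toOpenₗ Γ(X, W) (ModuleCat.of Γ(X, W) P) (PrimeSpectrum.basicOpen r))
    ((tilde.modulesSpecToSheafIso (ModuleCat.of Γ(X, W) P)).app _).toLinearEquiv.symm

/-- Elements of the module as sections over the affine open. -/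
def toPush : P →ₗ[Γ(X, W)] Γ(pushMod hW P, W) where
  toFun p := (pushSec hW P W).symm (toSpecSec P (hW.fromSpec ⁻¹ᵁ W) p)
  map_add' p q := by simp only [map_add]
  map_smul' a p := by
    apply (pushSec hW P W).injective
    have h := pushSec_res_smul hW P (le_refl W) a
      ((pushSec hW P W).symm (toSpecSec P (hW.fromSpec ⁻¹ᵁ W) p))
    rw [show (homOfLE (le_refl W)).op = 𝟙 _ from rfl, X.presheaf.map_id] at h
    rw [AddEquiv.apply_symm_apply, RingHom.id_apply, map_smul]
    exact ((h.trans (congrArg (a • ·) (AddEquiv.apply_symm_apply _ _)))).symm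

/-- The module is the module of sections over the affine open. -/
lemma toPush_bijective : Function.Bijective (toPush hW P) :=
  (pushSec hW P W).symm.bijective.comp (toSpecSec_bijective P hW.fromSpec_preimage_self)

/-- An element restricts to its canonical section. -/
lemma sRes_toPush {V : X.Opens} (h : V ≤ W) (p : P) :
    pushSec hW P V (sRes (pushMod hW P) h (toPush hW P p)) =
      toSpecSec P (hW.fromSpec ⁻¹ᵁ V) p :=
  toSpecSec_res P (hW.fromSpec.preimage_mono h) p

/-- Sections over a principal open, identified with a localisation of the module. -/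
theorem exists_pushEquiv {r : Γ(X, W)} {V : X.Opens} (hV : V = X.basicOpen r) (hVW : V ≤ W)
    (Q : Type u) [AddCommGroup Q] [Module Γ(X, V) Q] (f : P →+ Q)
    (hf : ∀ (a : Γ(X, W)) p, f (a • p) = X.presheaf.map (homOfLE hVW).op a • f p)
    (hinj : Function.Injective f)
    (hsurj : ∀ q, ∃ (n : ℕ) (p : P), f p = X.presheaf.map (homOfLE hVW).op (r ^ n) • q) :
    ∃ g : Γ(pushMod hW P, V) ≃ₗ[Γ(X, V)] Q,
      ∀ p, g (sRes (pushMod hW P) hVW (toPush hW P p)) = f p := by
  subst hV
  set ρ := (X.presheaf.map (homOfLE hVW).op).hom with hρ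
  let : Module Γ(X, W) Q := Module.compHom Q ρ
  have hru : IsUnit (ρ r) := RingedSpace.isUnit_res_basicOpen _ r
  let f' : P →ₗ[Γ(X, W)] Q := { f with map_smul' := hf }
  -- `f` is the localisation of `P` at `r`, as are the sections on `D(r)`
  have : IsLocalizedModule (Submonoid.powers r) f' :=
    { map_units := by
        rintro ⟨_, n, rfl⟩
        rw [Module.End.isUnit_iff]
        obtain ⟨v, hv⟩ := hru.pow n
        have hv' : (v : Γ(X, X.basicOpen r)) = ρ (r ^ n) := by rw [hv, map_pow]
        refine Function.bijective_iff_has_inverse.mpr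
          ⟨fun q ↦ (↑v⁻¹ : Γ(X, X.basicOpen r)) • q, fun q ↦ ?_, fun q ↦ ?_⟩
        · change (↑v⁻¹ : Γ(X, X.basicOpen r)) • ρ (r ^ n) • q = q
          rw [← hv', ← mul_smul, Units.inv_mul, one_smul]
        · change ρ (r ^ n) • (↑v⁻¹ : Γ(X, X.basicOpen r)) • q = q
          rw [← hv', ← mul_smul, Units.mul_inv, one_smul]
      surj := fun q ↦ by
        obtain ⟨n, p, hp⟩ := hsurj q
        exact ⟨⟨p, ⟨r ^ n, n, rfl⟩⟩, hp.symm⟩
      exists_of_eq := fun h ↦ ⟨1, congrArg ((1 : Submonoid.powers r) • ·) (hinj h)⟩ }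
  have := isLocalizedModule_toSpecSec (X := X) (W := W) P
    (hW.fromSpec_preimage_basicOpen r)
  let e := IsLocalizedModule.linearEquiv (Submonoid.powers r)
    (toSpecSec P (hW.fromSpec ⁻¹ᵁ X.basicOpen r)) f'
  let g₀ : Γ(pushMod hW P, X.basicOpen r) ≃+ Q :=
    (pushSec hW P (X.basicOpen r)).trans e.toAddEquiv
  have hg₀ : ∀ (a : Γ(X, W)) m, g₀ (ρ a • m) = ρ a • g₀ m := fun a m ↦ by
    change e (pushSec hW P _ (ρ a • m)) = a • e (pushSec hW P _ m)
    rw [hρ, pushSec_res_smul hW P hVW, map_smul]
  refine ⟨{ g₀ with map_smul' := fun z m ↦ ?_ }, fun p ↦ ?_⟩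
  · let := ρ.toAlgebra
    have := hW.isLocalization_of_eq_basicOpen r (homOfLE hVW) rfl
    obtain ⟨⟨a, ⟨_, n, rfl⟩⟩, ha⟩ := IsLocalization.surj (Submonoid.powers r) z
    change z * ρ (r ^ n) = ρ a at ha
    change g₀ (z • m) = z • g₀ m
    refine ((map_pow ρ r n) ▸ hru.pow n : IsUnit (ρ (r ^ n))).smul_left_cancel.mp ?_
    rw [← hg₀, ← mul_smul, ← mul_smul, mul_comm, ha, hg₀]
  · change e (pushSec hW P _ (sRes (pushMod hW P) hVW (toPush hW P p))) = f p
    rw [sRes_toPush]
    exact IsLocalizedModule.linearEquiv_apply (Submonoid.powers r) _ f' p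

/-- Pulled back to the affine open the pushforward is the original sheaf. -/
def pullbackPushMod : (Scheme.Modules.pullback hW.fromSpec).obj
    (pushMod hW P) ≅ specMod (W := W) P :=
  haveI := Adjunction.counit_isIso_of_R_fully_faithful
    (Scheme.Modules.pullbackPushforwardAdjunction hW.fromSpec)
  (@asIso _ _ _ _ (Scheme.Modules.pullbackPushforwardAdjunction hW.fromSpec).counit this).app
    (specMod P)

variable [Module.Invertible Γ(X, W) P]

/-- The pushforward of an invertible module is invertible on the affine open. -/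
lemma isInvertible_pullback_pushMod :
    Scheme.Modules.IsInvertible ((Scheme.Modules.pullback hW.fromSpec).obj (pushMod hW P)) :=
  isInvertible_of_isoMod (pullbackPushMod hW P).symm
    (isInvertible_tilde Γ(X, W) (ModuleCat.of Γ(X, W) P))

/-- The pushforward of an invertible module is invertible on affine opens inside. -/
lemma isInvertible_pullback_pushMod_of_le {V : X.Opens} (hV : IsAffineOpen V) (h : V ≤ W) :
    Scheme.Modules.IsInvertible ((Scheme.Modules.pullback hV.fromSpec).obj (pushMod hW P)) := by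
  rw [← IsAffineOpen.map_fromSpec hW hV (homOfLE h).op]
  exact isInvertible_of_isoMod ((Scheme.Modules.pullbackComp _ hW.fromSpec).app _)
    ((isInvertible_pullback_pushMod hW P).pullback _)

/-- The pushforward has generators near the points of the affine open. -/
theorem exists_isGen_pushMod {x : X} (hx : x ∈ W) :
    ∃ (U : X.Opens) (s : Γ(pushMod hW P, U)), x ∈ U ∧ U ≤ W ∧ IsGen (pushMod hW P) U s := by
  set j := hW.fromSpec
  have hinv : Scheme.Modules.IsInvertible (specMod (W := W) P) :=
    isInvertible_tilde Γ(X, W) (ModuleCat.of Γ(X, W) P)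
  obtain ⟨O, s, hxO, hs⟩ := exists_isGen hinv (hW.primeIdealOf ⟨x, hx⟩)
  have hxU : x ∈ j ''ᵁ O := ⟨_, hxO, hW.fromSpec_primeIdealOf ⟨x, hx⟩⟩
  have hUW : j ''ᵁ O ≤ W := by
    rintro _ ⟨z, -, rfl⟩
    exact hW.opensRange_fromSpec.le ⟨z, rfl⟩
  have e : j ⁻¹ᵁ (j ''ᵁ O) = O := j.preimage_image_eq O
  refine ⟨j ''ᵁ O, (pushSec hW P _).symm (sRes _ e.le s), hxU, hUW, fun V hV ↦ ?_⟩
  have := j.isIso_app V (hV.trans (hUW.trans hW.opensRange_fromSpec.ge))
  have hb := ConcreteCategory.bijective_of_isIso (j.app V)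
  have hle : j ⁻¹ᵁ V ≤ O := (j.preimage_mono hV).trans e.le
  have h2 := (pushSec hW P V).symm.bijective.comp ((hs _ hle).comp hb)
  convert h2 using 1
  funext r
  apply (pushSec hW P V).injective
  simp only [Function.comp_apply, AddEquiv.apply_symm_apply, pushSec_smul, pushSec_sRes, sRes_sRes]
  rfl

end

end Fermat.PIC
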