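import Fermat.Agent.PIC.Bridge.RigBase

/-!
# Normalised isomorphisms of rigidified line bundles over opens of the base

`exists_normalized` and `normalized_unique`: an isomorphism can be normalised, and normalised ones
are unique.
-/

set_option autoImplicit false

universe u

open CategoryTheory CategoryTheory.Limits AlgebraicGeometry TopologicalSpace NeronModelInfra
open AlgebraicGeometry.RelPicard

namespace Fermat.PIC

noncomputable section

variable {X Y : Scheme.{u}}

/-- An isomorphism of sheaves of modules over an open, given on sections. -/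
structure SecIso (M N : X.Modules) (W : X.Opens) where
  /-- The map from `M` to `N` over `W`. -/
  hom : SecHom M N W
  /-- The map from `N` to `M` over `W` inverse to `hom`. -/
  inv : SecHom N M W
  /-- `hom` followed by `inv` is the identity. -/
  hom_inv : hom.comp inv = SecHom.id M W
  /-- `inv` followed by `hom` is the identity. -/
  inv_hom : inv.comp hom = SecHom.id N W

namespace SecIso

variable {M N K : X.Modules} {W W' : X.Opens}

/-- The identity. -/
def refl (M : X.Modules) (W : X.Opens) : SecIso M M W :=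
  ⟨SecHom.id M W, SecHom.id M W, rfl, rfl⟩

/-- The inverse. -/
def symm (e : SecIso M N W) : SecIso N M W := ⟨e.inv, e.hom, e.inv_hom, e.hom_inv⟩

/-- The map after its inverse is the identity on sections. -/
lemma inv_hom_app (e : SecIso M N W) (V : X.Opens) (hV : V ≤ W) (x : Γ(N, V)) :
    e.hom.app V hV (e.inv.app V hV x) = x :=
  congrArg (fun θ : SecHom N N W ↦ θ.app V hV x) e.inv_hom

/-- The inverse after the map is the identity on sections. -/
lemma hom_inv_app (e : SecIso M N W) (V : X.Opens) (hV : V ≤ W) (x : Γ(M, V)) :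
    e.inv.app V hV (e.hom.app V hV x) = x :=
  congrArg (fun θ : SecHom M M W ↦ θ.app V hV x) e.hom_inv

/-- Composition. -/
def trans (e : SecIso M N W) (f : SecIso N K W) : SecIso M K W where
  hom := e.hom.comp f.hom
  inv := f.inv.comp e.inv
  hom_inv := by ext V hV x; simp [f.hom_inv_app, e.hom_inv_app]
  inv_hom := by ext V hV x; simp [f.inv_hom_app, e.inv_hom_app]

/-- Restriction to a smaller open. -/
def restrict (e : SecIso M N W) (h : W' ≤ W) : SecIso M N W' where
  hom := e.hom.restrict h
  inv := e.inv.restrict h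
  hom_inv := by ext V hV x; simp [e.hom_inv_app]
  inv_hom := by ext V hV x; simp [e.inv_hom_app]

/-- An isomorphism of sheaves. -/
def ofIso (e : M ≅ N) (W : X.Opens) : SecIso M N W where
  hom := SecHom.ofHom e.hom W
  inv := SecHom.ofHom e.inv W
  hom_inv := by
    ext V hV x
    exact congr($(congrArg (fun φ : M ⟶ M ↦ φ.app V) e.hom_inv_id) x)
  inv_hom := by
    ext V hV x
    exact congr($(congrArg (fun φ : N ⟶ N ↦ φ.app V) e.inv_hom_id) x)

/-- An isomorphism over everything. -/
def toIso (e : SecIso M N ⊤) : M ≅ N := SecHom.toIso e.hom e.inv e.hom_inv e.inv_hom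

/-- An isomorphism of pullbacks along an open immersion gives one over its range. -/
def ofPullback (j : Y ⟶ X) [IsOpenImmersion j]
    (e : (Scheme.Modules.pullback j).obj M ≅ (Scheme.Modules.pullback j).obj N) :
    SecIso M N j.opensRange where
  hom := SecHom.ofPullback j e.hom
  inv := SecHom.ofPullback j e.inv
  hom_inv := by
    ext V hV x
    apply (sPull_bijective_of_isOpenImmersion j M V hV).1
    rw [SecHom.comp_app, SecHom.sPull_ofPullback, SecHom.sPull_ofPullback]
    exact congr($(congrArg (fun φ : (Scheme.Modules.pullback j).obj M ⟶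
      (Scheme.Modules.pullback j).obj M ↦ φ.app (j ⁻¹ᵁ V)) e.hom_inv_id) (sPull j M V x))
  inv_hom := by
    ext V hV x
    apply (sPull_bijective_of_isOpenImmersion j N V hV).1
    rw [SecHom.comp_app, SecHom.sPull_ofPullback, SecHom.sPull_ofPullback]
    exact congr($(congrArg (fun φ : (Scheme.Modules.pullback j).obj N ⟶
      (Scheme.Modules.pullback j).obj N ↦ φ.app (j ⁻¹ᵁ V)) e.inv_hom_id) (sPull j N V x))

/-- An isomorphism over an open preserves having generators there. -/
lemma genOn {e : SecIso M N W} (h : GenOn M W) : GenOn N W := fun x hx ↦ by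
  obtain ⟨U, s, hxU, hUW, hs⟩ := h x hx
  refine ⟨U, e.hom.app U hUW s, hxU, hUW, fun V hV ↦ ?_⟩
  have hb : Function.Bijective (e.hom.app V (hV.trans hUW)) :=
    Function.bijective_iff_has_inverse.mpr ⟨e.inv.app V (hV.trans hUW),
      e.hom_inv_app V _, e.inv_hom_app V _⟩
  convert hb.comp (hs V hV) using 1
  funext r
  simp only [Function.comp_apply, e.hom.smul, e.hom.res]

end SecIso

/-- Endomorphisms of the structure sheaf over an open are scalars. -/
lemma eq_scalar_unitMod {W : X.Opens} (a : SecHom (unitMod X) (unitMod X) W) :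
    a = SecHom.scalar (unitMod X) (show Γ(X, W) from a.app W le_rfl (oneSec X W)) := by
  ext V hV x
  rw [SecHom.scalar_app]
  have hx : x = (show Γ(X, V) from x) • oneSec X V := (@mul_one Γ(X, V) _ x).symm
  conv_lhs => rw [hx, a.smul, ← oneSec_res hV, ← a.res _ _ le_rfl hV]
  exact mul_comm (show Γ(X, V) from x) _

variable {k : Type u} [Field k] {C : Scheme.{u}} {c : C ⟶ Spec (CommRingCat.of k)}
  {ε : SchemeHomOver (𝟙 (Spec (CommRingCat.of k))) c}
  {T : Scheme.{u}} {t : T ⟶ Spec (CommRingCat.of k)}

/-- A rigidification over an open of the base. -/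
abbrev RigOn (ε : SchemeHomOver (𝟙 (Spec (CommRingCat.of k))) c) (t : T ⟶ Spec (CommRingCat.of k))
    (L : (pullback c t).Modules) (V : T.Opens) : Type u :=
  SecIso ((Scheme.Modules.pullback (rigSection c t ε)).obj L) (unitMod T) V

variable {L L' L'' : (pullback c t).Modules} {V V' : T.Opens}

/-- Pullback along the section of a morphism given over a part of the base. -/
def sigPull (ε : SchemeHomOver (𝟙 (Spec (CommRingCat.of k))) c)
    (a : SecHom L L' (baseOpen t c V)) :
    SecHom ((Scheme.Modules.pullback (rigSection c t ε)).obj L)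
      ((Scheme.Modules.pullback (rigSection c t ε)).obj L') V :=
  (SecHom.pullback (rigSection c t ε) a).restrict (rigSection_preimage_baseOpen t V).ge

/-- The section pulls opens over `V` into `V`. -/
lemma rigSection_preimage_mono {U : (pullback c t).Opens} (hU : U ≤ baseOpen t c V) :
    rigSection c t ε ⁻¹ᵁ U ≤ V :=
  ((rigSection c t ε).preimage_mono hU).trans (rigSection_preimage_baseOpen t V).le

/-- Pullback along the section acts on pulled back sections as the morphism. -/
lemma sigPull_sPull (a : SecHom L L' (baseOpen t c V)) (U : (pullback c t).Opens)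
    (hU : U ≤ baseOpen t c V) (x : Γ(L, U)) :
    (sigPull ε a).app (rigSection c t ε ⁻¹ᵁ U) (rigSection_preimage_mono hU)
        (sPull (rigSection c t ε) L U x) =
      sPull (rigSection c t ε) L' U (a.app U hU x) := by
  -- `rw [sigPull]` would leave abstracted instance proofs, which the kernel compares by unfolding
  rw [show sigPull ε a = (SecHom.pullback (rigSection c t ε) a).restrict
    (rigSection_preimage_baseOpen t V).ge from rfl, SecHom.restrict_app]
  exact SecHom.pullback_sPull (rigSection c t ε) a U hU x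

/-- Extensionality over the section. -/
lemma sigExt (hL : GenOn L (baseOpen t c V)) {K : T.Modules}
    {ψ ψ' : SecHom ((Scheme.Modules.pullback (rigSection c t ε)).obj L) K V}
    (h : ∀ U (hU : U ≤ baseOpen t c V) (s : Γ(L, U)), IsGen L U s →
      ψ.app (rigSection c t ε ⁻¹ᵁ U) (rigSection_preimage_mono hU)
          (sPull (rigSection c t ε) L U s) =
        ψ'.app (rigSection c t ε ⁻¹ᵁ U) (rigSection_preimage_mono hU)
          (sPull (rigSection c t ε) L U s)) : ψ = ψ' := by
  have key := SecHom.ext_pullback (rigSection c t ε) hL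
    (ψ := ψ.restrict (rigSection_preimage_baseOpen t V).le)
    (ψ' := ψ'.restrict (rigSection_preimage_baseOpen t V).le) h
  ext W hW x
  exact congrArg (fun θ : SecHom _ K (rigSection c t ε ⁻¹ᵁ baseOpen t c V) ↦
    θ.app W (hW.trans (rigSection_preimage_baseOpen t V).ge) x) key

/-- Pullback along the section respects composition. -/
lemma sigPull_comp (hL : GenOn L (baseOpen t c V)) (a : SecHom L L' (baseOpen t c V))
    (b : SecHom L' L'' (baseOpen t c V)) :
    sigPull ε (a.comp b) = (sigPull ε a).comp (sigPull ε b) :=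
  sigExt hL fun U hU x _ ↦ by
    rw [SecHom.comp_app, sigPull_sPull a U hU, sigPull_sPull b U hU, sigPull_sPull _ U hU,
      SecHom.comp_app]

/-- Pullback along the section commutes with restriction. -/
lemma sigPull_restrict (hL : GenOn L (baseOpen t c V')) (a : SecHom L L' (baseOpen t c V))
    (h : V' ≤ V) : sigPull ε (a.restrict (baseOpen_mono t h)) = (sigPull ε a).restrict h :=
  sigExt hL fun U hU x _ ↦ by
    rw [SecHom.restrict_app, sigPull_sPull _ U hU, SecHom.restrict_app,
      sigPull_sPull a U (hU.trans (baseOpen_mono t h))]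

/-- Pulling a scalar back along the rigidification is the scalar. -/
lemma sigPull_scalar (hL : GenOn L (baseOpen t c V)) (u : Γ(T, V)) :
    sigPull ε (SecHom.scalar L ((pullback.snd c t).app V u)) =
      SecHom.scalar ((Scheme.Modules.pullback (rigSection c t ε)).obj L) u :=
  sigExt hL fun U hU x _ ↦ by
    rw [sigPull_sPull _ U hU, SecHom.scalar_app, SecHom.scalar_app, sPull_smul]
    congr 1
    have e : (rigSection c t ε ≫ pullback.snd c t).appLE V (rigSection c t ε ⁻¹ᵁ U)
        ((rigSection c t ε).preimage_mono hU) u =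
        (rigSection c t ε).app U ((pullback c t).presheaf.map (homOfLE hU).op
          ((pullback.snd c t).app V u)) := by
      rw [← Scheme.Hom.appLE_comp_appLE (rigSection c t ε) (pullback.snd c t) V (baseOpen t c V)
        (rigSection c t ε ⁻¹ᵁ U) le_rfl ((rigSection c t ε).preimage_mono hU),
        CommRingCat.comp_apply, ← Scheme.Hom.app_eq_appLE]
      exact (congr($((rigSection c t ε).naturality (homOfLE hU).op) _)).symm
    refine e.symm.trans ?_
    simp only [rigSection_snd]
    simp [Scheme.Hom.appLE]
    rfl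

/-- Pullback along the section respects the identity. -/
lemma sigPull_id (hL : GenOn L (baseOpen t c V)) :
    sigPull ε (SecHom.id L (baseOpen t c V)) = SecHom.id _ V :=
  sigExt hL fun U hU x _ ↦ by rw [sigPull_sPull _ U hU, SecHom.id_app, SecHom.id_app]

/-- Pullback of isomorphisms along the section. -/
def sigPullIso (hL : GenOn L (baseOpen t c V)) (θ : SecIso L L' (baseOpen t c V)) :
    SecIso ((Scheme.Modules.pullback (rigSection c t ε)).obj L)
      ((Scheme.Modules.pullback (rigSection c t ε)).obj L') V where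
  hom := sigPull ε θ.hom
  inv := sigPull ε θ.inv
  hom_inv := by rw [← sigPull_comp hL, θ.hom_inv, sigPull_id hL]
  inv_hom := by
    rw [← sigPull_comp (θ.genOn hL), θ.inv_hom, sigPull_id (θ.genOn hL)]

/-- A morphism compatible with rigidifications. -/
def Normalized (r : RigOn ε t L V) (r' : RigOn ε t L' V)
    (θ : SecHom L L' (baseOpen t c V)) : Prop :=
  (sigPull ε θ).comp r'.hom = r.hom

/-- Normalisation is preserved by restriction. -/
lemma Normalized.restrict (hL : GenOn L (baseOpen t c V')) {r : RigOn ε t L V}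
    {r' : RigOn ε t L' V} {θ : SecHom L L' (baseOpen t c V)} (hθ : Normalized r r' θ) (h : V' ≤ V) :
    Normalized (r.restrict h) (r'.restrict h) (θ.restrict (baseOpen_mono t h)) := by
  rw [Normalized, sigPull_restrict hL θ h]
  ext W hW x
  exact congrArg (fun ψ : SecHom _ (unitMod T) V ↦ ψ.app W (hW.trans h) x) hθ

/-- Normalisation is preserved by composition. -/
lemma Normalized.comp (hL : GenOn L (baseOpen t c V)) {r : RigOn ε t L V} {r' : RigOn ε t L' V}
    {r'' : RigOn ε t L'' V} {a : SecHom L L' (baseOpen t c V)} {b : SecHom L' L'' (baseOpen t c V)}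
    (ha : Normalized r r' a) (hb : Normalized r' r'' b) : Normalized r r'' (a.comp b) := by
  rw [Normalized, sigPull_comp hL]
  ext W hW x
  have h1 := congrArg (fun ψ : SecHom _ (unitMod T) V ↦
    ψ.app W hW ((sigPull ε a).app W hW x)) hb
  have h2 := congrArg (fun ψ : SecHom _ (unitMod T) V ↦ ψ.app W hW x) ha
  exact h1.trans h2

/-- The identity is normalised. -/
lemma normalized_id (hL : GenOn L (baseOpen t c V)) (r : RigOn ε t L V) :
    Normalized r r (SecHom.id L _) := by
  rw [Normalized, sigPull_id hL]
  ext W hW x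
  rfl

/-- The inverse of a normalised isomorphism is normalised. -/
lemma Normalized.inv (hL : GenOn L (baseOpen t c V)) {r : RigOn ε t L V} {r' : RigOn ε t L' V}
    {θ : SecIso L L' (baseOpen t c V)} (h : Normalized r r' θ.hom) : Normalized r' r θ.inv := by
  have e : ((sigPull ε θ.inv).comp (sigPull ε θ.hom)).comp r'.hom =
      (sigPull ε θ.inv).comp r.hom := by
    ext W hW x
    exact congrArg (fun ψ : SecHom _ (unitMod T) V ↦ ψ.app W hW ((sigPull ε θ.inv).app W hW x)) h
  rw [← sigPull_comp (θ.genOn hL), θ.inv_hom, sigPull_id (θ.genOn hL)] at e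
  rw [Normalized, ← e]
  ext W hW x
  rfl

variable (M : CurveModel c ε)
include M

/-- An endomorphism compatible with a rigidification is the identity. -/
theorem eq_id_of_normalized (hL : GenOn L (baseOpen t c V)) {r : RigOn ε t L V}
    {a : SecHom L L (baseOpen t c V)} (h : Normalized r r a) :
    a = SecHom.id L (baseOpen t c V) := by
  let ι : Type u := {W : T.Opens // IsAffineOpen W ∧ W ≤ V}
  refine SecHom.ext_of_cover (fun W : ι ↦ baseOpen t c W.1) ?_ ?_
  · intro x hx
    obtain ⟨W, hW, hxW, hWV⟩ := Opens.isBasis_iff_nbhd.mp T.isBasis_affineOpens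
      (show pullback.snd c t x ∈ V from hx)
    exact Opens.mem_iSup.mpr ⟨⟨W, hW, hWV⟩, hxW⟩
  rintro ⟨W, hW, hWV⟩ U hU hUW x
  have hLW := hL.mono (baseOpen_mono t hWV)
  obtain ⟨u, hu⟩ := exists_eq_scalar t M hW hLW (a.restrict (baseOpen_mono t hWV))
  have h' := h.restrict hLW hWV
  rw [Normalized, hu, sigPull_scalar hLW] at h'
  have hu1 : u = 1 := by
    have hg := (hLW.pullback (rigSection c t ε)).mono (rigSection_preimage_baseOpen t W).ge
    let κ : Type u :=
      {O : T.Opens // ∃ s : Γ((Scheme.Modules.pullback (rigSection c t ε)).obj L, O),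
      O ≤ W ∧ IsGen _ O s}
    refine TopCat.Sheaf.eq_of_locally_eq' T.sheaf (fun O : κ ↦ O.1) W
      (fun O ↦ homOfLE (by obtain ⟨s, hOW, -⟩ := O.2; exact hOW)) ?_ u 1 ?_
    · intro x hx
      obtain ⟨O, s, hxO, hOW, hs⟩ := hg x hx
      exact Opens.mem_iSup.mpr ⟨⟨O, s, hOW, hs⟩, hxO⟩
    rintro ⟨O, s, hOW, hs⟩
    have h1 := congrArg ((r.restrict hWV).inv.app O hOW)
      (congrArg (fun ψ : SecHom _ (unitMod T) W ↦ ψ.app O hOW s) h')
    simp only [SecHom.comp_app, SecIso.hom_inv_app, SecHom.scalar_app] at h1
    apply (hs O le_rfl).1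
    simp only [sRes_self]
    change T.presheaf.map (homOfLE hOW).op u • s = T.presheaf.map (homOfLE hOW).op 1 • s
    rw [h1, map_one, one_smul]
  have h2 := congrArg (fun θ : SecHom L L (baseOpen t c W) ↦ θ.app U hUW x) hu
  rw [hu1, map_one, SecHom.scalar_one] at h2
  exact h2

/-- Compatible isomorphisms are unique. -/
theorem normalized_unique (hL : GenOn L (baseOpen t c V)) {r : RigOn ε t L V}
    {r' : RigOn ε t L' V} {θ θ' : SecIso L L' (baseOpen t c V)}
    (h : Normalized r r' θ.hom) (h' : Normalized r r' θ'.hom) : θ.hom = θ'.hom := by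
  have hid := eq_id_of_normalized M hL (h.comp hL (h'.inv hL))
  ext W hW x
  have h1 := congrArg (fun a : SecHom L L (baseOpen t c V) ↦ θ'.hom.app W hW (a.app W hW x)) hid
  simpa only [SecHom.comp_app, SecIso.inv_hom_app, SecHom.id_app] using h1

omit M in
/-- Any isomorphism can be made compatible with given rigidifications. -/
theorem exists_normalized (hL : GenOn L (baseOpen t c V)) (r : RigOn ε t L V)
    (r' : RigOn ε t L' V) (θ : SecIso L L' (baseOpen t c V)) :
    ∃ θ' : SecIso L L' (baseOpen t c V), Normalized r r' θ'.hom := by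
  -- `θ` changes the rigidification by a unit `w`
  obtain ⟨d, hd⟩ : ∃ d : SecIso (unitMod T) (unitMod T) V,
      d = (r.symm.trans (sigPullIso hL θ)).trans r' := ⟨_, rfl⟩
  let w : Γ(T, V) := d.hom.app V le_rfl (oneSec T V)
  let w' : Γ(T, V) := d.inv.app V le_rfl (oneSec T V)
  have hww : w' * w = 1 := by
    have h1 := d.hom_inv_app V le_rfl (oneSec T V)
    have hw : d.hom.app V le_rfl (oneSec T V) = w • oneSec T V := (@mul_one Γ(T, V) _ w).symm
    exact (mul_comm w' w).trans
      ((d.inv.smul V le_rfl w (oneSec T V)).symm.trans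
        ((congrArg (d.inv.app V le_rfl) hw).symm.trans h1))
  -- correct `θ` by the inverse unit, pulled back from the base
  let qw : Γ(pullback c t, baseOpen t c V) := (pullback.snd c t).app V w
  let qw' : Γ(pullback c t, baseOpen t c V) := (pullback.snd c t).app V w'
  have hqq : qw' * qw = 1 := by rw [← map_mul, hww, map_one]
  have hscal : ∀ (K : (pullback c t).Modules) (s s' : Γ(pullback c t, baseOpen t c V)),
      s * s' = 1 → (SecHom.scalar K s').comp (SecHom.scalar K s) = SecHom.id K _ := by
    intro K s s' hs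
    ext W hW x
    rw [SecHom.comp_app, SecHom.scalar_app, SecHom.scalar_app, ← mul_smul, ← map_mul, hs, map_one,
      one_smul, SecHom.id_app]
  let σ' : SecIso L' L' (baseOpen t c V) :=
    ⟨SecHom.scalar L' qw', SecHom.scalar L' qw, hscal L' _ _ (by rw [mul_comm, hqq]),
      hscal L' _ _ hqq⟩
  refine ⟨θ.trans σ', ?_⟩
  have hL' := θ.genOn hL
  change (sigPull ε (θ.hom.comp (SecHom.scalar L' qw'))).comp r'.hom = r.hom
  rw [sigPull_comp hL, sigPull_scalar hL']
  ext W hW x
  rw [SecHom.comp_app, SecHom.comp_app, SecHom.scalar_app, r'.hom.smul]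
  obtain ⟨y, rfl⟩ : ∃ y, r.inv.app W hW y = x := ⟨r.hom.app W hW x, r.hom_inv_app W hW x⟩
  rw [r.inv_hom_app]
  -- along the section the two now agree
  have hd' : d.hom = (r.inv.comp (sigPull ε θ.hom)).comp r'.hom := by rw [hd]; rfl
  have h3 : r'.hom.app W hW ((sigPull ε θ.hom).app W hW (r.inv.app W hW y)) =
      T.presheaf.map (homOfLE hW).op w • y := by
    have h4 := congrArg (fun a : SecHom (unitMod T) (unitMod T) V ↦ a.app W hW y)
      (hd'.symm.trans (eq_scalar_unitMod d.hom))
    simp only [SecHom.comp_app, SecHom.scalar_app] at h4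
    exact h4
  rw [h3, ← mul_smul, ← map_mul, hww, map_one, one_smul]

end

end Fermat.PIC
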