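import Fermat.Agent.PIC.Bridge.SecTools
import Fermat.Agent.PIC.Bridge.HomOf
import Fermat.Agent.PIC.Chart.TrivialH0

/-!
# Endomorphisms of a line bundle over an affine part of the base are scalars

`exists_eq_scalar` is deduced from the case of data, `Datum.exists_scalar_of_endo`.
-/

set_option autoImplicit false

universe u

open CategoryTheory CategoryTheory.Limits AlgebraicGeometry NeronModelInfra
open AlgebraicGeometry.RelPicard Opposite
open scoped TensorProduct

namespace Fermat.PIC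

noncomputable section

/-- An endomorphism of a datum is multiplication by a function of the base. -/
theorem Datum.exists_scalar_of_endo {k : Type u} [Field k] {G : CurveCharts k} {B : Type u}
    [CommRing B] [Algebra k B] (D : Datum G B) (f0 : D.P0 →ₗ[G.R0 B] D.P0)
    (f1 : D.P1 →ₗ[G.R1 B] D.P1) (f01 : D.P01 →ₗ[G.R01 B] D.P01)
    (c0 : ∀ p, D.r0 (f0 p) = f01 (D.r0 p)) (c1 : ∀ p, D.r1 (f1 p) = f01 (D.r1 p)) :
    ∃ b : B, (∀ p, f0 p = algebraMap B (G.R0 B) b • p) ∧
      ∀ p, f1 p = algebraMap B (G.R1 B) b • p := by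
  obtain ⟨a0, ha0⟩ := (Module.Invertible.toModuleEnd_bijective (G.R0 B) D.P0).2 f0
  obtain ⟨a1, ha1⟩ := (Module.Invertible.toModuleEnd_bijective (G.R1 B) D.P1).2 f1
  obtain ⟨a, ha⟩ := (Module.Invertible.toModuleEnd_bijective (G.R01 B) D.P01).2 f01
  have h0 : ∀ p, f0 p = a0 • p := fun p ↦ by rw [← ha0]; rfl
  have h1 : ∀ p, f1 p = a1 • p := fun p ↦ by rw [← ha1]; rfl
  have h : ∀ z, f01 z = a • z := fun z ↦ by rw [← ha]; rfl
  have e0 : G.ρ0 B a0 = a := by
    refine eq_of_smul_eq_smul fun z : D.P01 ↦ ?_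
    obtain ⟨n, p, hp⟩ := D.r0_surj z
    have := c0 p
    rw [h0, D.r0_smul, h, hp, smul_comm (G.ρ0 B a0), smul_comm a] at this
    exact ((G.xUnit B).isUnit.pow n).smul_left_cancel.mp this
  have e1 : G.ρ1 B a1 = a := by
    refine eq_of_smul_eq_smul fun z : D.P01 ↦ ?_
    obtain ⟨n, p, hp⟩ := D.r1_surj z
    have := c1 p
    rw [h1, D.r1_smul, h, hp, smul_comm (G.ρ1 B a1), smul_comm a] at this
    exact ((G.xUnit B)⁻¹.isUnit.pow n).smul_left_cancel.mp this
  obtain ⟨b, hb0, hb1⟩ := G.exists_algebraMap_of_ρ_eq B (e0.trans e1.symm)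
  exact ⟨b, fun p ↦ by rw [h0, hb0], fun p ↦ by rw [h1, hb1]⟩

variable {k : Type u} [Field k] {C : Scheme.{u}} {c : C ⟶ Spec (CommRingCat.of k)}
  {ε : SchemeHomOver (𝟙 (Spec (CommRingCat.of k))) c}
  {T : Scheme.{u}} (t : T ⟶ Spec (CommRingCat.of k))

/-- The part of the curve over an open of the base. -/
abbrev baseOpen (c : C ⟶ Spec (CommRingCat.of k)) (V : T.Opens) : (pullback c t).Opens :=
  pullback.snd c t ⁻¹ᵁ V

/-- The part of the curve over an open is monotone in the open. -/
lemma baseOpen_mono {V V' : T.Opens} (h : V ≤ V') : baseOpen t c V ≤ baseOpen t c V' :=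
  (pullback.snd c t).preimage_mono h

/-- The base point section is a section of the projection to the base. -/
lemma rigSection_snd (c : C ⟶ Spec (CommRingCat.of k))
    (ε : SchemeHomOver (𝟙 (Spec (CommRingCat.of k))) c) :
    rigSection c t ε ≫ pullback.snd c t = 𝟙 T :=
  pullback.lift_snd _ _ _

/-- The section pulls the part over an open back to that open. -/
lemma rigSection_preimage_baseOpen (V : T.Opens) :
    rigSection c t ε ⁻¹ᵁ baseOpen t c V = V := by
  rw [baseOpen, ← Scheme.Hom.comp_preimage, rigSection_snd]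
  rfl

/-- The base change square of a morphism of bases is cartesian. -/
lemma isPullback_baseChangeSnd {T' : Scheme.{u}} {t' : T' ⟶ Spec (CommRingCat.of k)}
    (ψ : SchemeHomOver t' t) :
    IsPullback (pullback.snd c t') (baseChangeSnd c ψ) ψ.1 (pullback.snd c t) := by
  have ht := (IsPullback.of_hasPullback c t).flip
  refine IsPullback.of_bot ?_ (baseChangeSnd_snd c ψ).symm ht
  rw [baseChangeSnd_fst, ψ.2]
  exact (IsPullback.of_hasPullback c t').flip

/-- Base change along an open immersion is an open immersion. -/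
lemma isOpenImmersion_baseChangeSnd {T' : Scheme.{u}} {t' : T' ⟶ Spec (CommRingCat.of k)}
    (ψ : SchemeHomOver t' t) [IsOpenImmersion ψ.1] : IsOpenImmersion (baseChangeSnd c ψ) :=
  MorphismProperty.of_isPullback (P := @IsOpenImmersion) (isPullback_baseChangeSnd t ψ)
    ‹IsOpenImmersion ψ.1›

/-- Its image is the part of the curve over the image. -/
lemma opensRange_baseChangeSnd {T' : Scheme.{u}} {t' : T' ⟶ Spec (CommRingCat.of k)}
    (ψ : SchemeHomOver t' t) [IsOpenImmersion ψ.1] :
    haveI := isOpenImmersion_baseChangeSnd (c := c) t ψ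
    (baseChangeSnd c ψ).opensRange = baseOpen t c ψ.1.opensRange := by
  have := isOpenImmersion_baseChangeSnd (c := c) t ψ
  have h := isPullback_baseChangeSnd (c := c) t ψ
  apply TopologicalSpace.Opens.ext
  rw [Scheme.Hom.coe_opensRange]
  change Set.range (baseChangeSnd c ψ) = pullback.snd c t ⁻¹' Set.range ψ.1
  rw [← Scheme.Pullback.range_snd ψ.1 (pullback.snd c t), ← h.isoPullback_hom_snd,
    Scheme.Hom.comp_base, TopCat.coe_comp, Set.range_comp,
    Set.range_eq_univ.mpr h.isoPullback.hom.surjective, Set.image_univ]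

variable (M : CurveModel c ε)

include M in
/-- Over an affine open of the base an endomorphism of a line bundle is a scalar. -/
theorem exists_eq_scalar {L : (pullback c t).Modules} {V : T.Opens} (hV : IsAffineOpen V)
    (hL : GenOn L (baseOpen t c V)) (a : SecHom L L (baseOpen t c V)) :
    ∃ u : Γ(T, V), a = SecHom.scalar L ((pullback.snd c t).app V u) := by
  let : Algebra k Γ(T, V) := (Spec.preimage (hV.fromSpec ≫ t)).hom.toAlgebra
  have hψ : hV.fromSpec ≫ t = specStr (k := k) Γ(T, V) := by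
    rw [specStr, RingHom.algebraMap_toAlgebra, CommRingCat.ofHom_hom, Spec.map_preimage]
  let ψ : SchemeHomOver (specStr (k := k) Γ(T, V)) t := ⟨hV.fromSpec, hψ⟩
  have : IsOpenImmersion ψ.1 := inferInstanceAs (IsOpenImmersion hV.fromSpec)
  have hg := isOpenImmersion_baseChangeSnd (c := c) t ψ
  set g := baseChangeSnd c ψ
  have hrange : g.opensRange = baseOpen t c V := by
    rw [opensRange_baseChangeSnd]
    exact congrArg (baseOpen t c) hV.opensRange_fromSpec
  have hLB : Scheme.Modules.IsInvertible ((Scheme.Modules.pullback g).obj L) :=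
    hL.isInvertible_pullback g fun x ↦ hrange.le ⟨x, rfl⟩
  let aB := SecHom.toPullback g hrange.le a
  let D := M.datOf Γ(T, V) _ hLB
  obtain ⟨b, hb0, hb1⟩ := D.exists_scalar_of_endo
    { toFun := fun p ↦ M.sec0 _ hLB (aB.app _ ((M.sec0 _ hLB).symm p))
      map_add' := fun p q ↦ by simp only [map_add]
      map_smul' := fun r p ↦ congrArg (M.sec0 _ hLB)
        (Scheme.Modules.Hom.app_smul aB (M.iso0 _ r) ((M.sec0 _ hLB).symm p)) }
    { toFun := fun p ↦ M.sec1 _ hLB (aB.app _ ((M.sec1 _ hLB).symm p))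
      map_add' := fun p q ↦ by simp only [map_add]
      map_smul' := fun r p ↦ congrArg (M.sec1 _ hLB)
        (Scheme.Modules.Hom.app_smul aB (M.iso1 _ r) ((M.sec1 _ hLB).symm p)) }
    { toFun := fun p ↦ M.sec01 _ hLB (aB.app _ ((M.sec01 _ hLB).symm p))
      map_add' := fun p q ↦ by simp only [map_add]
      map_smul' := fun r p ↦ congrArg (M.sec01 _ hLB)
        (Scheme.Modules.Hom.app_smul aB (M.iso01 _ r) ((M.sec01 _ hLB).symm p)) }
    (fun p ↦ (app_sRes aB (M.W01_le_W0 _) ((M.sec0 _ hLB).symm p)).symm)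
    (fun p ↦ (app_sRes aB (M.W01_le_W1 _) ((M.sec1 _ hLB).symm p)).symm)
  let sB : Γ(pullback c (specStr (k := k) Γ(T, V)), ⊤) :=
    (pullback.snd c _).appTop ((Scheme.ΓSpecIso (CommRingCat.of Γ(T, V))).inv b)
  let θ := (SecHom.scalar ((Scheme.Modules.pullback g).obj L) sB).toHom
  have hsec : ∀ U : C.Opens, (pullback c (specStr (k := k) Γ(T, V))).presheaf.map
      (homOfLE (le_top (a := preU c Γ(T, V) U))).op sB = secB c Γ(T, V) U b := fun _ ↦ rfl
  have haB : aB = θ := by
    refine M.hom_ext _ hLB (fun p ↦ ?_) fun p ↦ ?_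
    · rw [SecHom.toHom_app, SecHom.scalar_app, hsec]
      refine (hb0 p).trans ?_
      change M.iso0 Γ(T, V) (b ⊗ₜ (1 : M.G.A0)) • p = _
      rw [M.iso0_tmul Γ(T, V), map_one, map_one, mul_one]
    · rw [SecHom.toHom_app, SecHom.scalar_app, hsec]
      refine (hb1 p).trans ?_
      change M.iso1 Γ(T, V) (b ⊗ₜ (1 : M.G.A1)) • p = _
      rw [M.iso1_tmul Γ(T, V), map_one, map_one, mul_one]
  refine ⟨b, SecHom.ext fun U hU x ↦ ?_⟩
  have hU' : U ≤ g.opensRange := hU.trans hrange.ge
  apply (sPull_bijective_of_isOpenImmersion g L U hU').1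
  rw [← SecHom.toPullback_sPull g hrange.le a U hU' x, SecHom.scalar_app, sPull_smul]
  change aB.app _ _ = _
  rw [haB, SecHom.toHom_app, SecHom.scalar_app]
  congr 1
  -- both scalars are the pullback of `b`
  have key : (baseChangeSnd c ψ ≫ pullback.snd c t).appLE V (g ⁻¹ᵁ U)
      ((g.preimage_mono hU)) b =
      g.app U ((pullback c t).presheaf.map (homOfLE hU).op ((pullback.snd c t).app V b)) := by
    rw [← Scheme.Hom.appLE_comp_appLE g (pullback.snd c t) V (baseOpen t c V) (g ⁻¹ᵁ U) le_rfl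
      (g.preimage_mono hU), CommRingCat.comp_apply, ← Scheme.Hom.app_eq_appLE]
    exact (congr($(g.naturality (homOfLE hU).op) _)).symm
  refine Eq.trans ?_ key
  simp only [baseChangeSnd_snd]
  rw [← Scheme.Hom.appLE_comp_appLE (pullback.snd c (specStr (k := k) Γ(T, V))) ψ.1 V ⊤ (g ⁻¹ᵁ U)
    hV.fromSpec_preimage_self.ge le_top, CommRingCat.comp_apply]
  have hψb : ψ.1.appLE V ⊤ hV.fromSpec_preimage_self.ge b =
      (Scheme.ΓSpecIso (CommRingCat.of Γ(T, V))).inv b := by
    change hV.fromSpec.appLE V ⊤ _ b = _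
    rw [Scheme.Hom.appLE, hV.fromSpec_app_self]
    simp only [CommRingCat.hom_comp, RingHom.coe_comp, Function.comp_apply]
    refine (congr($((Spec Γ(T, V)).presheaf.map_comp (eqToHom hV.fromSpec_preimage_self).op
      (homOfLE hV.fromSpec_preimage_self.ge).op) ((Scheme.ΓSpecIso Γ(T, V)).inv b))).symm.trans ?_
    exact congr($((Spec Γ(T, V)).presheaf.map_id (op ⊤)) ((Scheme.ΓSpecIso Γ(T, V)).inv b))
  rw [hψb]
  rfl

end

end Fermat.PIC
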