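import Fermat.Agent.PIC.Bridge.BCOf
import Fermat.Agent.PIC.Bridge.PushModule

/-!
# The invertible sheaf of a datum

`exists_sheaf_of_datum`, by gluing two pieces (`PushModule`); the universal bundles of the charts
are obtained this way.
-/

set_option autoImplicit false

universe u

open CategoryTheory CategoryTheory.Limits AlgebraicGeometry NeronModelInfra

namespace Fermat.PIC

noncomputable section

/-- Glue data from two sheaves and an isomorphism over the overlap. -/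
def twoGlue {X : Scheme.{u}} {U₀ U₁ : X.Opens} (N₀ N₁ : X.Modules)
    (a : SecHom N₀ N₁ (U₀ ⊓ U₁)) (b : SecHom N₁ N₀ (U₀ ⊓ U₁))
    (hab : ∀ V hV x, b.app V hV (a.app V hV x) = x)
    (hba : ∀ V hV x, a.app V hV (b.app V hV x) = x) : ModGlue X where
  ι := ULift.{u} Bool
  U := pairOpens U₀ U₁
  M i := bif i.down then N₁ else N₀
  φ
    | ⟨false⟩, ⟨false⟩ => SecHom.id _ _
    | ⟨false⟩, ⟨true⟩ => a
    | ⟨true⟩, ⟨false⟩ => b.restrict (inf_comm U₁ U₀).le
    | ⟨true⟩, ⟨true⟩ => SecHom.id _ _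
  φ_self := by rintro ⟨_ | _⟩ V hV x <;> rfl
  φ_trans := by
    rintro ⟨_ | _⟩ ⟨_ | _⟩ ⟨_ | _⟩ V hij hjk hik x
    · rfl
    · rfl
    · exact hab V hij x
    · rfl
    · rfl
    · exact hba V hjk x
    · rfl
    · rfl

/-- Lifts from a piece preserve generators. -/
lemma ModGlue.isGen_lift {X : Scheme.{u}} (D : ModGlue X) (i : D.ι) {U : X.Opens} (hU : U ≤ D.U i)
    {s : Γ(D.M i, U)} (hs : IsGen (D.M i) U s) : IsGen D.glued U ((D.lift i).app U hU s) := by
  intro V hV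
  have hb : Function.Bijective ((D.lift i).app V (hV.trans hU)) :=
    Function.bijective_iff_has_inverse.mpr ⟨(D.proj i).app V (hV.trans hU),
      fun m ↦ D.proj_lift i V _ m, fun m ↦ D.lift_proj i V _ m⟩
  convert hb.comp (hs V hV) using 1
  funext r
  simp only [Function.comp_apply, (D.lift i).smul, (D.lift i).res]

/-- Lifting sections from a piece is bijective. -/
private lemma ModGlue.lift_app_bijective {X : Scheme.{u}} (D : ModGlue X) (i : D.ι) {V : X.Opens}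
    (hV : V ≤ D.U i) : Function.Bijective ((D.lift i).app V hV) :=
  Function.bijective_iff_has_inverse.mpr ⟨(D.proj i).app V hV,
    fun m ↦ D.proj_lift i V _ m, fun m ↦ D.lift_proj i V _ m⟩

/-- Two generated pieces glue to an invertible sheaf. -/
private lemma isInvertible_twoGlue {X : Scheme.{u}} {U₀ U₁ : X.Opens} (hcov : U₀ ⊔ U₁ = ⊤)
    {N₀ N₁ : X.Modules} (a : SecHom N₀ N₁ (U₀ ⊓ U₁)) (b : SecHom N₁ N₀ (U₀ ⊓ U₁))
    (hab : ∀ V hV x, b.app V hV (a.app V hV x) = x)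
    (hba : ∀ V hV x, a.app V hV (b.app V hV x) = x)
    (h₀ : ∀ x ∈ U₀, ∃ (U : X.Opens) (s : Γ(N₀, U)), x ∈ U ∧ U ≤ U₀ ∧ IsGen N₀ U s)
    (h₁ : ∀ x ∈ U₁, ∃ (U : X.Opens) (s : Γ(N₁, U)), x ∈ U ∧ U ≤ U₁ ∧ IsGen N₁ U s) :
    Scheme.Modules.IsInvertible (twoGlue N₀ N₁ a b hab hba).glued := by
  refine isInvertible_of_isGen fun x ↦ ?_
  have hx : x ∈ U₀ ⊔ U₁ := hcov.ge trivial
  rcases hx with hx | hx
  · obtain ⟨U, s, hxU, hUW, hs⟩ := h₀ x hx
    exact ⟨U, _, hxU, (twoGlue N₀ N₁ a b hab hba).isGen_lift ⟨false⟩ hUW hs⟩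
  · obtain ⟨U, s, hxU, hUW, hs⟩ := h₁ x hx
    exact ⟨U, _, hxU, (twoGlue N₀ N₁ a b hab hba).isGen_lift ⟨true⟩ hUW hs⟩

/-- In `twoGlue`, lifts from the second piece are lifts of the transition from the first. -/
private lemma twoGlue_lift_right {X : Scheme.{u}} {U₀ U₁ : X.Opens}
    {N₀ N₁ : X.Modules} (a : SecHom N₀ N₁ (U₀ ⊓ U₁)) (b : SecHom N₁ N₀ (U₀ ⊓ U₁))
    (hab : ∀ V hV x, b.app V hV (a.app V hV x) = x)
    (hba : ∀ V hV x, a.app V hV (b.app V hV x) = x) {V : X.Opens} (h₀ : V ≤ U₀) (h₁ : V ≤ U₁)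
    (m : Γ(N₁, V)) (n : Γ(N₀, V)) (hn : b.app V (le_inf h₀ h₁) m = n) :
    ((twoGlue N₀ N₁ a b hab hba).lift ⟨true⟩).app V h₁ m =
      ((twoGlue N₀ N₁ a b hab hba).lift ⟨false⟩).app V h₀ n := by
  set E := twoGlue N₀ N₁ a b hab hba
  have hz := E.proj_trans ⟨true⟩ ⟨false⟩ V h₁ h₀ ((E.lift ⟨true⟩).app V h₁ m)
  rw [E.proj_lift] at hz
  rw [← E.lift_proj ⟨false⟩ V h₀ ((E.lift ⟨true⟩).app V h₁ m), ← hz]
  exact congrArg ((E.lift ⟨false⟩).app V h₀) hn

namespace CurveModel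

variable {k : Type u} [Field k] {C : Scheme.{u}} {c : C ⟶ Spec (CommRingCat.of k)}
  {ε : SchemeHomOver (𝟙 (Spec (CommRingCat.of k))) c} (M : CurveModel c ε)
  {B : Type u} [CommRing B] [Algebra k B]

/-- A datum given by sections of an invertible sheaf is the datum of that sheaf. -/
private def equivOfSections (D : Datum M.G B) {L : (pullback c (specStr (k := k) B)).Modules}
    (hL : Scheme.Modules.IsInvertible L) (F0 : D.P0 →+ Γ(L, M.W0 B))
    (F1 : D.P1 →+ Γ(L, M.W1 B)) (F01 : D.P01 →+ Γ(L, M.W01 B))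
    (h0 : Function.Bijective F0) (h1 : Function.Bijective F1) (h01 : Function.Bijective F01)
    (s0 : ∀ r p, F0 (r • p) = M.iso0 B r • F0 p) (s1 : ∀ r p, F1 (r • p) = M.iso1 B r • F1 p)
    (s01 : ∀ r p, F01 (r • p) = M.iso01 B r • F01 p)
    (c0 : ∀ p, sRes L (M.W01_le_W0 B) (F0 p) = F01 (D.r0 p))
    (c1 : ∀ p, sRes L (M.W01_le_W1 B) (F1 p) = F01 (D.r1 p)) :
    Datum.Equiv D (M.datOf B L hL) where
  e0 := LinearEquiv.ofBijective
    { toFun := fun p ↦ M.sec0 B hL (F0 p)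
      map_add' := fun p q ↦ by rw [map_add, map_add]
      map_smul' := fun r p ↦ by rw [RingHom.id_apply, s0, M.sec0_smul B hL] }
    ((M.sec0 B hL).bijective.comp h0)
  e1 := LinearEquiv.ofBijective
    { toFun := fun p ↦ M.sec1 B hL (F1 p)
      map_add' := fun p q ↦ by rw [map_add, map_add]
      map_smul' := fun r p ↦ by rw [RingHom.id_apply, s1, M.sec1_smul B hL] }
    ((M.sec1 B hL).bijective.comp h1)
  e01 := LinearEquiv.ofBijective
    { toFun := fun p ↦ M.sec01 B hL (F01 p)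
      map_add' := fun p q ↦ by rw [map_add, map_add]
      map_smul' := fun r p ↦ by rw [RingHom.id_apply, s01, M.sec01_smul B hL] }
    ((M.sec01 B hL).bijective.comp h01)
  comm0 p := congrArg (M.sec01 B hL) (c0 p)
  comm1 p := congrArg (M.sec01 B hL) (c1 p)

/-- Every datum comes from an invertible sheaf. -/
theorem exists_sheaf_of_datum (D : Datum M.G B) :
    ∃ (L : (pullback c (specStr (k := k) B)).Modules) (hL : Scheme.Modules.IsInvertible L),
      Nonempty (Datum.Equiv (M.datOf B L hL) D) := by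
  let m0 : Module Γ(pullback c (specStr (k := k) B), M.W0 B) D.P0 :=
    Module.compHom _ (M.iso0 B).symm.toRingHom
  let m1 : Module Γ(pullback c (specStr (k := k) B), M.W1 B) D.P1 :=
    Module.compHom _ (M.iso1 B).symm.toRingHom
  let m01 : Module Γ(pullback c (specStr (k := k) B), M.W01 B) D.P01 :=
    Module.compHom _ (M.iso01 B).symm.toRingHom
  have i0 : Module.Invertible Γ(pullback c (specStr (k := k) B), M.W0 B) D.P0 :=
    invertible_compHom (M.iso0 B).symm D.P0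
  have i1 : Module.Invertible Γ(pullback c (specStr (k := k) B), M.W1 B) D.P1 :=
    invertible_compHom (M.iso1 B).symm D.P1
  let N₀ := pushMod (M.isAffineOpen_W0 B) D.P0
  let N₁ := pushMod (M.isAffineOpen_W1 B) D.P1
  have hr0 : ∀ a, (M.iso01 B).symm ((pullback c (specStr (k := k) B)).presheaf.map
      (homOfLE (M.W01_le_W0 B)).op a) = M.G.ρ0 B ((M.iso0 B).symm a) := fun a ↦ by
    rw [RingEquiv.symm_apply_eq, M.iso01_ρ0 B, RingEquiv.apply_symm_apply]
  have hr1 : ∀ a, (M.iso01 B).symm ((pullback c (specStr (k := k) B)).presheaf.map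
      (homOfLE (M.W01_le_W1 B)).op a) = M.G.ρ1 B ((M.iso1 B).symm a) := fun a ↦ by
    rw [RingEquiv.symm_apply_eq, M.iso01_ρ1 B, RingEquiv.apply_symm_apply]
  -- on `W01` the sheaves of `P0` and `P1` both have sections `P01`
  obtain ⟨g₀, hg₀⟩ := exists_pushEquiv (M.isAffineOpen_W0 B) D.P0 (M.W01_eq_basicOpen_X0 B)
    (M.W01_le_W0 B) D.P01 D.r0.toAddMonoidHom
    (fun a p ↦ by
      change D.r0 ((M.iso0 B).symm a • p) = (M.iso01 B).symm _ • D.r0 p
      rw [hr0, D.r0_smul])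
    D.r0_inj (fun q ↦ by
      obtain ⟨n, p, hp⟩ := D.r0_surj q
      refine ⟨n, p, ?_⟩
      change D.r0 p = (M.iso01 B).symm _ • q
      rw [hr0, map_pow, map_pow, RingEquiv.symm_apply_apply]
      exact hp)
  obtain ⟨g₁, hg₁⟩ := exists_pushEquiv (M.isAffineOpen_W1 B) D.P1 (M.W01_eq_basicOpen_Y1 B)
    (M.W01_le_W1 B) D.P01 D.r1.toAddMonoidHom
    (fun a p ↦ by
      change D.r1 ((M.iso1 B).symm a • p) = (M.iso01 B).symm _ • D.r1 p
      rw [hr1, D.r1_smul])
    D.r1_inj (fun q ↦ by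
      obtain ⟨n, p, hp⟩ := D.r1_surj q
      refine ⟨n, p, ?_⟩
      change D.r1 p = (M.iso01 B).symm _ • q
      rw [hr1, map_pow, map_pow, RingEquiv.symm_apply_apply]
      exact hp)
  let hN₀ := isInvertible_pullback_pushMod_of_le (M.isAffineOpen_W0 B) D.P0
    (M.isAffineOpen_W01 B) (M.W01_le_W0 B)
  let hN₁ := isInvertible_pullback_pushMod_of_le (M.isAffineOpen_W1 B) D.P1
    (M.isAffineOpen_W01 B) (M.W01_le_W1 B)
  -- glue them along the resulting isomorphism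
  let a : SecHom N₀ N₁ (M.W01 B) :=
    secHomOf (M.isAffineOpen_W01 B) hN₀ (g₀.trans g₁.symm).toLinearMap
  let b : SecHom N₁ N₀ (M.W01 B) :=
    secHomOf (M.isAffineOpen_W01 B) hN₁ (g₁.trans g₀.symm).toLinearMap
  have hab : ∀ V hV x, b.app V hV (a.app V hV x) = x := fun V hV x ↦
    secHomOf_comp_app _ hN₀ hN₁ _ _ (fun x ↦ by simp) V hV x
  have hba : ∀ V hV x, a.app V hV (b.app V hV x) = x := fun V hV x ↦
    secHomOf_comp_app _ hN₁ hN₀ _ _ (fun x ↦ by simp) V hV x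
  let E : ModGlue (pullback c (specStr (k := k) B)) :=
    twoGlue (U₀ := M.W0 B) (U₁ := M.W1 B) N₀ N₁ a b hab hba
  let i₀ : E.ι := ⟨false⟩
  let i₁ : E.ι := ⟨true⟩
  have hL : Scheme.Modules.IsInvertible E.glued := isInvertible_twoGlue (M.W0_sup_W1 B) a b hab hba
    (fun x hx ↦ exists_isGen_pushMod (M.isAffineOpen_W0 B) D.P0 hx)
    (fun x hx ↦ exists_isGen_pushMod (M.isAffineOpen_W1 B) D.P1 hx)
  -- the sections of the glued sheaf give back `D`
  refine ⟨E.glued, hL, ⟨(M.equivOfSections D hL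
    (((E.lift i₀).app _ le_rfl).comp (toPush (M.isAffineOpen_W0 B) D.P0).toAddMonoidHom)
    (((E.lift i₁).app _ le_rfl).comp (toPush (M.isAffineOpen_W1 B) D.P1).toAddMonoidHom)
    (((E.lift i₀).app _ (M.W01_le_W0 B)).comp g₀.symm.toLinearMap.toAddMonoidHom)
    ((E.lift_app_bijective i₀ le_rfl).comp (toPush_bijective _ _))
    ((E.lift_app_bijective i₁ le_rfl).comp (toPush_bijective _ _))
    ((E.lift_app_bijective i₀ (M.W01_le_W0 B)).comp g₀.symm.bijective)
    (fun r p ↦ ?_) (fun r p ↦ ?_) (fun r p ↦ ?_) (fun p ↦ ?_) (fun p ↦ ?_)).symm⟩⟩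
  · refine Eq.trans ?_ ((E.lift i₀).smul _ le_rfl (M.iso0 B r) _)
    refine congrArg ((E.lift i₀).app _ le_rfl) (Eq.trans ?_
      (map_smul (toPush (M.isAffineOpen_W0 B) D.P0) (M.iso0 B r) p))
    exact congrArg _ (congrArg (· • p) ((M.iso0 B).symm_apply_apply r).symm)
  · refine Eq.trans ?_ ((E.lift i₁).smul _ le_rfl (M.iso1 B r) _)
    refine congrArg ((E.lift i₁).app _ le_rfl) (Eq.trans ?_
      (map_smul (toPush (M.isAffineOpen_W1 B) D.P1) (M.iso1 B r) p))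
    exact congrArg _ (congrArg (· • p) ((M.iso1 B).symm_apply_apply r).symm)
  · refine Eq.trans ?_ ((E.lift i₀).smul _ (M.W01_le_W0 B) (M.iso01 B r) _)
    refine congrArg ((E.lift i₀).app _ _) (Eq.trans ?_ (map_smul g₀.symm (M.iso01 B r) p))
    exact congrArg _ (congrArg (· • p) ((M.iso01 B).symm_apply_apply r).symm)
  · refine Eq.trans ((E.lift i₀).res _ _ le_rfl (M.W01_le_W0 B) _) ?_
    refine congrArg ((E.lift i₀).app _ (M.W01_le_W0 B)) ?_
    exact g₀.injective ((hg₀ p).trans (g₀.apply_symm_apply (D.r0 p)).symm)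
  · refine Eq.trans ((E.lift i₁).res _ _ le_rfl (M.W01_le_W1 B) _) ?_
    refine twoGlue_lift_right (U₀ := M.W0 B) (U₁ := M.W1 B) a b hab hba (M.W01_le_W0 B)
      (M.W01_le_W1 B) _ _ ?_
    exact (secHomOf_app_self (M.isAffineOpen_W01 B) hN₁ _ _).trans (congrArg g₀.symm (hg₁ p))

end CurveModel

end

end Fermat.PIC
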