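import Fermat.Agent.PIC.Bridge.Rig
import Fermat.Agent.PIC.Bridge.SheafOf

/-!
# Rigidified line bundles glue uniquely over open covers of the base

`iso_of_local` and `exists_glue`; hence the functor of `Global/Functor` is a sheaf.
-/

set_option autoImplicit false

universe u

open CategoryTheory CategoryTheory.Limits AlgebraicGeometry TopologicalSpace NeronModelInfra
open AlgebraicGeometry.RelPicard

namespace Fermat.PIC

noncomputable section

section General

variable {X Y : Scheme.{u}}

/-- Generators of a pullback along an open immersion give generators on the range. -/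
lemma genOn_of_isInvertible_pullback (j : Y ⟶ X) [IsOpenImmersion j] {M : X.Modules}
    (h : Scheme.Modules.IsInvertible ((Scheme.Modules.pullback j).obj M)) :
    GenOn M j.opensRange := by
  rintro _ ⟨y, rfl⟩
  obtain ⟨O, s, hyO, hs⟩ := exists_isGen h y
  have hU := j.image_le_opensRange O
  refine ⟨j ''ᵁ O, (SecHom.sPullEquiv j M _ hU).symm (sRes _ (j.preimage_image_eq O).le s),
    ⟨y, hyO, rfl⟩, hU, ?_⟩
  rw [isGen_sPull_iff_of_isOpenImmersion j M hU]
  rw [show sPull j M (j ''ᵁ O) ((SecHom.sPullEquiv j M _ hU).symm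
      (sRes _ (j.preimage_image_eq O).le s)) = sRes _ (j.preimage_image_eq O).le s from
    (SecHom.sPullEquiv j M _ hU).apply_symm_apply _]
  exact hs.mono _

/-- Morphisms of pullbacks along an open immersion are determined on pulled back sections. -/
lemma hom_ext_sPull (j : Y ⟶ X) [IsOpenImmersion j] {M : X.Modules} {N : Y.Modules}
    {φ φ' : (Scheme.Modules.pullback j).obj M ⟶ N}
    (h : ∀ U (_ : U ≤ j.opensRange) (x : Γ(M, U)),
      φ.app (j ⁻¹ᵁ U) (sPull j M U x) = φ'.app (j ⁻¹ᵁ U) (sPull j M U x)) : φ = φ' := by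
  ext O z
  have hU := j.image_le_opensRange O
  obtain ⟨x, hx⟩ := (sPull_bijective_of_isOpenImmersion j M _ hU).2
    (sRes _ (j.preimage_image_eq O).le z)
  have hz : z = sRes _ (j.preimage_image_eq O).ge (sPull j M (j ''ᵁ O) x) := by
    rw [hx, sRes_sRes, sRes_self]
  rw [hz, app_sRes, app_sRes, h _ hU]

namespace SecIso

variable {M N : X.Modules} {W : X.Opens}

/-- An isomorphism over an open pulls back to one along an open immersion into it. -/
def pullbackIso (j : Y ⟶ X) [IsOpenImmersion j] (hj : j.opensRange ≤ W) (e : SecIso M N W) :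
    (Scheme.Modules.pullback j).obj M ≅ (Scheme.Modules.pullback j).obj N where
  hom := SecHom.toPullback j hj e.hom
  inv := SecHom.toPullback j hj e.inv
  hom_inv_id := hom_ext_sPull j fun U hU x ↦ by
    change (SecHom.toPullback j hj e.inv).app _ ((SecHom.toPullback j hj e.hom).app _ _) =
      sPull j M U x
    rw [SecHom.toPullback_sPull j hj e.hom U hU, SecHom.toPullback_sPull j hj e.inv U hU,
      e.hom_inv_app]
  inv_hom_id := hom_ext_sPull j fun U hU x ↦ by
    change (SecHom.toPullback j hj e.hom).app _ ((SecHom.toPullback j hj e.inv).app _ _) =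
      sPull j N U x
    rw [SecHom.toPullback_sPull j hj e.inv U hU, SecHom.toPullback_sPull j hj e.hom U hU,
      e.inv_hom_app]

section Glue

variable {ι : Type u} (U : ι → X.Opens) (e : ∀ i, SecIso M N (U i))
  (he : ∀ i j V (hi : V ≤ U i) (hj : V ≤ U j) x, (e i).hom.app V hi x = (e j).hom.app V hj x)

include he in
/-- The inverses of compatible isomorphisms are compatible. -/
lemma inv_compat (i j : ι) (V : X.Opens) (hi : V ≤ U i) (hj : V ≤ U j) (x : Γ(N, V)) :
    (e i).inv.app V hi x = (e j).inv.app V hj x := by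
  have h := he i j V hi hj ((e j).inv.app V hj x)
  rw [(e j).inv_hom_app] at h
  conv_lhs => rw [← h]
  rw [(e i).hom_inv_app]

/-- Compatible isomorphisms glue. -/
def glue (hW : W ≤ iSup U) : SecIso M N W where
  hom := SecHom.glue U (fun i ↦ (e i).hom) he hW
  inv := SecHom.glue U (fun i ↦ (e i).inv) (inv_compat U e he) hW
  hom_inv := SecHom.ext_of_cover U hW fun i V hV hVi x ↦ by
    rw [SecHom.comp_app, SecHom.glue_app U _ _ hW i V hV hVi, SecHom.glue_app U _ _ hW i V hV hVi,
      (e i).hom_inv_app, SecHom.id_app]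
  inv_hom := SecHom.ext_of_cover U hW fun i V hV hVi x ↦ by
    rw [SecHom.comp_app, SecHom.glue_app U _ _ hW i V hV hVi, SecHom.glue_app U _ _ hW i V hV hVi,
      (e i).inv_hom_app, SecHom.id_app]

end Glue

end SecIso

end General

variable {k : Type u} [Field k] {C : Scheme.{u}} {c : C ⟶ Spec (CommRingCat.of k)}
  {ε : SchemeHomOver (𝟙 (Spec (CommRingCat.of k))) c}
  {T : Scheme.{u}} {t : T ⟶ Spec (CommRingCat.of k)}

/-- An isomorphism after base change along an open immersion gives one over the range. -/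
def secIsoOfBaseChange {T' : Scheme.{u}} {t' : T' ⟶ Spec (CommRingCat.of k)}
    (ψ : SchemeHomOver t' t) [IsOpenImmersion ψ.1] {L L' : (pullback c t).Modules}
    (e : (Scheme.Modules.pullback (baseChangeSnd c ψ)).obj L ≅
      (Scheme.Modules.pullback (baseChangeSnd c ψ)).obj L') :
    SecIso L L' (baseOpen t c ψ.1.opensRange) :=
  haveI := isOpenImmersion_baseChangeSnd (c := c) t ψ
  (SecIso.ofPullback (baseChangeSnd c ψ) e).restrict (opensRange_baseChangeSnd t ψ).ge

/-- Rigidified bundles which are locally isomorphic over the base are isomorphic. -/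
theorem iso_of_local (M : CurveModel c ε) (A A' : RigidifiedLineBundle c ε t)
    (h : ∀ x : T, ∃ V : T.Opens, x ∈ V ∧ Nonempty (SecIso A.L A'.L (baseOpen t c V))) :
    Nonempty (A.L ≅ A'.L) := by
  choose V hxV hne using h
  let rA : ∀ W : T.Opens, RigOn ε t A.L W := fun W ↦ SecIso.ofIso A.rigidified.some W
  let rA' : ∀ W : T.Opens, RigOn ε t A'.L W := fun W ↦ SecIso.ofIso A'.rigidified.some W
  choose θ hθ using fun x : T ↦
    exists_normalized (genOn_of_isInvertible A.isInvertible _) (rA (V x)) (rA' (V x)) (hne x).some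
  refine ⟨(SecIso.glue (W := ⊤) (fun x : T ↦ baseOpen t c (V x)) θ ?_ ?_).toIso⟩
  · intro i j U hi hj x
    have e := normalized_unique M (genOn_of_isInvertible A.isInvertible _)
      (θ := (θ i).restrict (baseOpen_mono t (inf_le_left : V i ⊓ V j ≤ V i)))
      (θ' := (θ j).restrict (baseOpen_mono t (inf_le_right : V i ⊓ V j ≤ V j)))
      ((hθ i).restrict (genOn_of_isInvertible A.isInvertible _) inf_le_left)
      ((hθ j).restrict (genOn_of_isInvertible A.isInvertible _) inf_le_right)
    exact congrArg (fun a : SecHom A.L A'.L (baseOpen t c (V i ⊓ V j)) ↦ a.app U (le_inf hi hj) x) e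
  · intro p _
    exact Opens.mem_iSup.mpr ⟨pullback.snd c t p, hxV _⟩

/-- Isomorphic restrictions to an overlap give a normalised isomorphism over it. -/
lemma exists_normalized_overlap {T₁ T₂ : Scheme.{u}} {t₁ : T₁ ⟶ Spec (CommRingCat.of k)}
    {t₂ : T₂ ⟶ Spec (CommRingCat.of k)} (ψ : SchemeHomOver t₁ t) (ψ' : SchemeHomOver t₂ t)
    [IsOpenImmersion ψ.1] [IsOpenImmersion ψ'.1] {N N' : (pullback c t).Modules}
    {L₁ : (pullback c t₁).Modules} {L₂ : (pullback c t₂).Modules}
    (κ : (Scheme.Modules.pullback (baseChangeSnd c ψ)).obj N ≅ L₁)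
    (κ' : (Scheme.Modules.pullback (baseChangeSnd c ψ')).obj N' ≅ L₂)
    (hgen : GenOn N (baseOpen t c ψ.1.opensRange))
    (r : RigOn ε t N ψ.1.opensRange) (r' : RigOn ε t N' ψ'.1.opensRange)
    (he : ∀ {S : Scheme.{u}} (s : S ⟶ Spec (CommRingCat.of k)) (a : SchemeHomOver s t₁)
      (b : SchemeHomOver s t₂), a.1 ≫ ψ.1 = b.1 ≫ ψ'.1 →
      Nonempty ((Scheme.Modules.pullback (baseChangeSnd c a)).obj L₁ ≅
        (Scheme.Modules.pullback (baseChangeSnd c b)).obj L₂)) :
    ∃ θ : SecIso N N' (baseOpen t c (ψ.1.opensRange ⊓ ψ'.1.opensRange)),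
      Normalized (r.restrict inf_le_left) (r'.restrict inf_le_right) θ.hom := by
  let s : pullback ψ.1 ψ'.1 ⟶ Spec (CommRingCat.of k) :=
    pullback.fst ψ.1 ψ'.1 ≫ t₁
  let a : SchemeHomOver s t₁ := ⟨pullback.fst _ _, rfl⟩
  let b : SchemeHomOver s t₂ := ⟨pullback.snd _ _,
    ((congrArg (_ ≫ ·) ψ'.2.symm).trans (pullback.condition_assoc t).symm).trans
      (congrArg (_ ≫ ·) ψ.2)⟩
  obtain ⟨e⟩ := he s a b pullback.condition
  have : IsOpenImmersion (postComp ψ a).1 :=
    inferInstanceAs (IsOpenImmersion (pullback.fst _ _ ≫ ψ.1))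
  have hpost : postComp ψ' b = postComp ψ a := Subtype.ext pullback.condition.symm
  let e' : (Scheme.Modules.pullback (baseChangeSnd c (postComp ψ a))).obj N ≅
      (Scheme.Modules.pullback (baseChangeSnd c (postComp ψ a))).obj N' :=
    (Scheme.Modules.pullbackCongr (baseChangeSnd_comp c ψ a).symm).app N ≪≫
      ((Scheme.Modules.pullbackComp _ _).app N).symm ≪≫
      (Scheme.Modules.pullback (baseChangeSnd c a)).mapIso κ ≪≫ e ≪≫
      (Scheme.Modules.pullback (baseChangeSnd c b)).mapIso κ'.symm ≪≫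
      (Scheme.Modules.pullbackComp _ _).app N' ≪≫
      (Scheme.Modules.pullbackCongr
        ((baseChangeSnd_comp c ψ' b).trans (congrArg (baseChangeSnd c) hpost))).app N'
  have hr : (postComp ψ a).1.opensRange = ψ.1.opensRange ⊓ ψ'.1.opensRange := by
    apply TopologicalSpace.Opens.ext
    exact Scheme.Pullback.range_fst_comp ψ.1 ψ'.1
  exact exists_normalized ((hgen).mono (baseOpen_mono t inf_le_left)) _ _
    ((secIsoOfBaseChange (postComp ψ a) e').restrict (baseOpen_mono t hr.ge))

/-- Rigidifications transported from modules with a normalised isomorphism agree on the overlap. -/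
lemma sigPullIso_trans_compat {L N N' : (pullback c t).Modules} {V V' : T.Opens}
    (hg : GenOn L (baseOpen t c (V ⊓ V'))) (hgV : GenOn L (baseOpen t c V))
    (hgV' : GenOn L (baseOpen t c V')) (P : SecIso L N (baseOpen t c V))
    (P' : SecIso L N' (baseOpen t c V')) (r : RigOn ε t N V) (r' : RigOn ε t N' V')
    (θ : SecHom N N' (baseOpen t c (V ⊓ V')))
    (hθ : Normalized (r.restrict inf_le_left) (r'.restrict inf_le_right) θ)
    (hP : ∀ W (hW : W ≤ baseOpen t c (V ⊓ V')) (hWi : W ≤ baseOpen t c V)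
      (hWj : W ≤ baseOpen t c V') (s : Γ(L, W)),
      θ.app W hW (P.hom.app W hWi s) = P'.hom.app W hWj s) :
    (((sigPullIso hgV P).trans r).restrict inf_le_left).hom =
      (((sigPullIso hgV' P').trans r').restrict (inf_le_right : V ⊓ V' ≤ V')).hom := by
  refine sigExt hg fun W hW s _ ↦ ?_
  have hWi : W ≤ baseOpen t c V := hW.trans (baseOpen_mono t inf_le_left)
  have hWj : W ≤ baseOpen t c V' := hW.trans (baseOpen_mono t inf_le_right)
  simp only [SecIso.restrict, SecIso.trans, sigPullIso, SecHom.restrict_app,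
    SecHom.comp_app]
  rw [sigPull_sPull _ W hWi, sigPull_sPull _ W hWj, ← hP W hW hWi hWj s]
  change _ = r'.hom.app _ _ (sPull _ _ W (θ.app W hW _))
  rw [← sigPull_sPull (ε := ε) θ W hW]
  have e := hθ
  simp only [Normalized, SecIso.restrict] at e
  have e' := congrArg (fun a : SecHom ((Scheme.Modules.pullback (rigSection c t ε)).obj N)
    (unitMod T) (V ⊓ V') ↦ a.app (rigSection c t ε ⁻¹ᵁ W) (rigSection_preimage_mono hW)
      (sPull (rigSection c t ε) N W (P.hom.app W hWi s))) e
  simp only [SecHom.comp_app, SecHom.restrict_app] at e'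
  rw [← e']

/-- Rigidified bundles on an open cover of the base which agree on overlaps glue. -/
theorem exists_glue (M : CurveModel c ε) {ι : Type u} {T' : ι → Scheme.{u}}
    {t' : ∀ i, T' i ⟶ Spec (CommRingCat.of k)} (ψ : ∀ i, SchemeHomOver (t' i) t)
    [∀ i, IsOpenImmersion (ψ i).1] (hcov : ∀ x : T, ∃ i, x ∈ (ψ i).1.opensRange)
    (A : ∀ i, RigidifiedLineBundle c ε (t' i))
    (hA : ∀ (i j : ι) {S : Scheme.{u}} (s : S ⟶ Spec (CommRingCat.of k))
      (a : SchemeHomOver s (t' i)) (b : SchemeHomOver s (t' j)), a.1 ≫ (ψ i).1 = b.1 ≫ (ψ j).1 →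
      Nonempty (((A i).pullbackAlong a).L ≅ ((A j).pullbackAlong b).L)) :
    ∃ A₀ : RigidifiedLineBundle c ε t,
      ∀ i, Nonempty ((A₀.pullbackAlong (ψ i)).L ≅ (A i).L) := by
  have : ∀ i, IsOpenImmersion (baseChangeSnd c (ψ i)) :=
    fun i ↦ isOpenImmersion_baseChangeSnd (c := c) t (ψ i)
  let g := fun i ↦ baseChangeSnd c (ψ i)
  let V := fun i ↦ (ψ i).1.opensRange
  -- on each piece the pushforward `N i` of `A i`, with rigidification `r i`
  let N : ι → (pullback c t).Modules := fun i ↦ (Scheme.Modules.pushforward (g i)).obj (A i).L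
  let κ : ∀ i, (Scheme.Modules.pullback (g i)).obj (N i) ≅ (A i).L := fun i ↦
    haveI := Adjunction.counit_isIso_of_R_fully_faithful
      (Scheme.Modules.pullbackPushforwardAdjunction (g i))
    (@asIso _ _ _ _ (Scheme.Modules.pullbackPushforwardAdjunction (g i)).counit this).app (A i).L
  have hgen : ∀ i, GenOn (N i) (baseOpen t c (V i)) := fun i ↦
    (genOn_of_isInvertible_pullback (g i)
      (isInvertible_of_isoMod (κ i).symm (A i).isInvertible)).mono
        (opensRange_baseChangeSnd t (ψ i)).ge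
  let ρ : ∀ i, (Scheme.Modules.pullback (ψ i).1).obj
      ((Scheme.Modules.pullback (rigSection c t ε)).obj (N i)) ≅
        (Scheme.Modules.pullback (ψ i).1).obj (unitMod T) := fun i ↦
    (Scheme.Modules.pullbackComp _ _).app (N i) ≪≫
      (Scheme.Modules.pullbackCongr (rigSection_baseChangeSnd c ε (ψ i)).symm).app (N i) ≪≫
      ((Scheme.Modules.pullbackComp _ _).app (N i)).symm ≪≫
      (Scheme.Modules.pullback (rigSection c (t' i) ε)).mapIso (κ i) ≪≫
      (A i).rigidified.some ≪≫ (Scheme.Modules.pullbackUnitIso (ψ i).1).symm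
  obtain ⟨r⟩ : Nonempty (∀ i, RigOn ε t (N i) (V i)) := ⟨fun i ↦ SecIso.ofPullback (ψ i).1 (ρ i)⟩
  -- normalised isomorphisms on overlaps; by uniqueness they form a cocycle
  have hθ : ∀ i j, ∃ θ : SecIso (N i) (N j) (baseOpen t c (V i ⊓ V j)),
      Normalized ((r i).restrict inf_le_left) ((r j).restrict inf_le_right) θ.hom :=
    fun i j ↦ exists_normalized_overlap (ψ i) (ψ j) (κ i) (κ j) (hgen i) (r i) (r j) (hA i j)
  choose θ hθn using hθ
  have self : ∀ i U (hU : U ≤ baseOpen t c (V i ⊓ V i)) x, (θ i i).hom.app U hU x = x := by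
    intro i U hU x
    have hgi := (hgen i).mono (baseOpen_mono t (inf_le_left : V i ⊓ V i ≤ V i))
    exact congrArg (fun a : SecHom _ _ _ ↦ a.app U hU x)
      (normalized_unique M hgi (θ := θ i i) (θ' := SecIso.refl _ _) (hθn i i) (normalized_id hgi _))
  have trans : ∀ i j l U (hij : U ≤ baseOpen t c (V i ⊓ V j)) (hjl : U ≤ baseOpen t c (V j ⊓ V l))
      (hil : U ≤ baseOpen t c (V i ⊓ V l)) x,
      (θ j l).hom.app U hjl ((θ i j).hom.app U hij x) = (θ i l).hom.app U hil x := by
    intro i j l U hij hjl hil x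
    have hW1 : V i ⊓ V j ⊓ V l ≤ V i ⊓ V j := inf_le_left
    have hW2 : V i ⊓ V j ⊓ V l ≤ V j ⊓ V l := le_inf (inf_le_left.trans inf_le_right) inf_le_right
    have hW3 : V i ⊓ V j ⊓ V l ≤ V i ⊓ V l := le_inf (inf_le_left.trans inf_le_left) inf_le_right
    have hgi := (hgen i).mono (baseOpen_mono t (hW1.trans inf_le_left))
    have hgj := (hgen j).mono (baseOpen_mono t (hW1.trans inf_le_right))
    have e := normalized_unique M hgi
      (θ := ((θ i j).restrict (baseOpen_mono t hW1)).trans ((θ j l).restrict (baseOpen_mono t hW2)))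
      (θ' := (θ i l).restrict (baseOpen_mono t hW3))
      (r := (r i).restrict (hW1.trans inf_le_left)) (r' := (r l).restrict (hW2.trans inf_le_right))
      (((hθn i j).restrict hgi hW1).comp hgi ((hθn j l).restrict hgj hW2))
      ((hθn i l).restrict hgi hW3)
    exact congrArg (fun a : SecHom (N i) (N l) (baseOpen t c (V i ⊓ V j ⊓ V l)) ↦
      a.app U (le_inf hij (hil.trans (baseOpen_mono t inf_le_right))) x) e
  -- glue them; the rigidifications agree on overlaps, so glue as well
  let G : ModGlue (pullback c t) :=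
    { ι := ι
      U := fun i ↦ baseOpen t c (V i)
      M := N
      φ := fun i j ↦ (θ i j).hom
      φ_self := self
      φ_trans := trans }
  have hG : Scheme.Modules.IsInvertible G.glued := by
    refine isInvertible_of_isGen fun p ↦ ?_
    obtain ⟨i, hi⟩ := hcov (pullback.snd c t p)
    obtain ⟨U, s, hpU, hUW, hs⟩ := hgen i p hi
    exact ⟨U, _, hpU, G.isGen_lift i hUW hs⟩
  let P : ∀ i, SecIso G.glued (N i) (baseOpen t c (V i)) := fun i ↦
    { hom := G.proj i
      inv := G.lift i
      hom_inv := SecHom.ext fun U hU x ↦ G.lift_proj i U hU x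
      inv_hom := SecHom.ext fun U hU x ↦ G.proj_lift i U hU x }
  obtain ⟨R, hRdef⟩ : ∃ R : ∀ i, RigOn ε t G.glued (V i),
      ∀ i, R i = (sigPullIso (genOn_of_isInvertible hG _) (P i)).trans (r i) :=
    ⟨_, fun _ ↦ rfl⟩
  have hR : ∀ i j U (hi : U ≤ V i) (hj : U ≤ V j) x,
      (R i).hom.app U hi x = (R j).hom.app U hj x := by
    intro i j U hi hj x
    have h1 := sigPullIso_trans_compat (genOn_of_isInvertible hG _) (genOn_of_isInvertible hG _)
      (genOn_of_isInvertible hG _) (P i) (P j) (r i) (r j) (θ i j).hom (hθn i j)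
      fun W hW hWi hWj s ↦ G.proj_trans i j W hWi hWj s
    rw [← hRdef, ← hRdef] at h1
    exact congrArg (fun a : SecHom _ (unitMod T) (V i ⊓ V j) ↦ a.app U (le_inf hi hj) x) h1
  refine ⟨⟨G.glued, hG, ⟨(SecIso.glue (W := ⊤) V R hR ?_).toIso⟩⟩, fun i ↦ ⟨?_⟩⟩
  · intro x _
    exact Opens.mem_iSup.mpr (hcov x)
  · exact (P i).pullbackIso (g i) (opensRange_baseChangeSnd t (ψ i)).le ≪≫ κ i

end

end Fermat.PIC
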