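import Fermat.Agent.PIC.Bridge.PushModule

/-!
# Pullback and scalars for morphisms given on sections

`GenOn` is having local generators on an open, `scalar` multiplication by a function, and `pullback`
the pullback of a morphism.
-/

set_option autoImplicit false

universe u

open CategoryTheory CategoryTheory.Limits AlgebraicGeometry Opposite TopologicalSpace

namespace Fermat.PIC

noncomputable section

variable {X Y : Scheme.{u}}

/-- `M` has a generator near every point of `W`. -/
def GenOn (M : X.Modules) (W : X.Opens) : Prop :=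
  ∀ x ∈ W, ∃ (U : X.Opens) (s : Γ(M, U)), x ∈ U ∧ U ≤ W ∧ IsGen M U s

/-- An invertible sheaf has generators near every point of every open. -/
lemma genOn_of_isInvertible {M : X.Modules} (hM : Scheme.Modules.IsInvertible M) (W : X.Opens) :
    GenOn M W := fun x hx ↦ by
  obtain ⟨U, s, hxU, hs⟩ := exists_isGen hM x
  exact ⟨U ⊓ W, sRes M inf_le_left s, ⟨hxU, hx⟩, inf_le_right, hs.mono inf_le_left⟩

/-- A sheaf with generators near every point is invertible, in `GenOn` form. -/
lemma isInvertible_of_genOn_top {M : X.Modules} (h : GenOn M ⊤) :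
    Scheme.Modules.IsInvertible M :=
  isInvertible_of_isGen fun x ↦ by
    obtain ⟨U, s, hx, -, hs⟩ := h x trivial
    exact ⟨U, s, hx, hs⟩

/-- Having generators passes to smaller opens. -/
lemma GenOn.mono {M : X.Modules} {W W' : X.Opens} (h : GenOn M W) (h' : W' ≤ W) : GenOn M W' :=
  fun x hx ↦ by
    obtain ⟨U, s, hxU, -, hs⟩ := h x (h' hx)
    exact ⟨U ⊓ W', sRes M inf_le_left s, ⟨hxU, hx⟩, inf_le_right, hs.mono inf_le_left⟩

/-- Having generators is preserved by pullback. -/
lemma GenOn.pullback {M : Y.Modules} {W : Y.Opens} (h : GenOn M W) (f : X ⟶ Y) :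
    GenOn ((Scheme.Modules.pullback f).obj M) (f ⁻¹ᵁ W) := fun x hx ↦ by
  obtain ⟨U, s, hxU, hUW, hs⟩ := h (f x) hx
  exact ⟨f ⁻¹ᵁ U, Fermat.PIC.sPull f M U s, hxU, f.preimage_mono hUW, hs.sPull f⟩

/-- The pullback along a morphism into such an open is invertible. -/
lemma GenOn.isInvertible_pullback {M : Y.Modules} {W : Y.Opens} (h : GenOn M W) (f : X ⟶ Y)
    (hf : ∀ x, f x ∈ W) : Scheme.Modules.IsInvertible ((Scheme.Modules.pullback f).obj M) :=
  isInvertible_of_genOn_top ((h.pullback f).mono fun x _ ↦ hf x)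

namespace SecHom

variable {M N K : X.Modules} {W : X.Opens}

/-- Multiplication by a function on the open. -/
def scalar (M : X.Modules) (s : Γ(X, W)) : SecHom M M W where
  app V hV := AddMonoidHom.mk' (fun x ↦ X.presheaf.map (homOfLE hV).op s • x) fun _ _ ↦
    smul_add _ _ _
  smul V hV r x := by
    simp only [AddMonoidHom.mk'_apply]
    rw [smul_comm]
  res V V' hV h' x := by
    simp only [AddMonoidHom.mk'_apply, sRes_smul]
    rw [← CommRingCat.comp_apply, ← X.presheaf.map_comp]
    rfl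

/-- A scalar acts by multiplication. -/
lemma scalar_app (M : X.Modules) (s : Γ(X, W)) (V : X.Opens) (hV : V ≤ W) (x : Γ(M, V)) :
    (scalar M s).app V hV x = X.presheaf.map (homOfLE hV).op s • x := rfl

/-- Multiplication by one is the identity. -/
lemma scalar_one (M : X.Modules) : scalar M (1 : Γ(X, W)) = SecHom.id M W := by
  ext V hV x
  rw [scalar_app, map_one, one_smul, id_app]

section Pullback

/-- A morphism over an open as a morphism of pullbacks along an open immersion into it. -/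
def toPullback (j : Y ⟶ X) [IsOpenImmersion j] (hj : j.opensRange ≤ W) (ψ : SecHom M N W) :
    (Scheme.Modules.pullback j).obj M ⟶ (Scheme.Modules.pullback j).obj N :=
  SecHom.toHom
    { app := fun O _ ↦
        (sRes _ (j.preimage_image_eq O).ge).comp <| (sPull j N (j ''ᵁ O)).comp <|
          (ψ.app (j ''ᵁ O) ((j.image_le_opensRange O).trans hj)).comp <|
            (sPullEquiv j M (j ''ᵁ O) (j.image_le_opensRange O)).symm.toAddMonoidHom.comp <|
              sRes _ (j.preimage_image_eq O).le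
      smul := fun O _ r x ↦ by
        -- linearity: lift the scalar through `j`
        set V := j ''ᵁ O
        have hV := j.image_le_opensRange O
        have := j.isIso_app V hV
        obtain ⟨s, hs⟩ := (ConcreteCategory.bijective_of_isIso (j.app V)).2
          (Y.presheaf.map (homOfLE (j.preimage_image_eq O).le).op r)
        simp only [AddMonoidHom.coe_comp, AddEquiv.coe_toAddMonoidHom, Function.comp_apply]
        rw [sRes_smul, ← hs]
        have h1 : (sPullEquiv j M V hV).symm
            (j.app V s • sRes _ (j.preimage_image_eq O).le x) =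
            s • (sPullEquiv j M V hV).symm (sRes _ (j.preimage_image_eq O).le x) := by
          rw [AddEquiv.symm_apply_eq]
          exact ((sPull_smul j M V s _).trans (congrArg (j.app V s • ·)
            ((sPullEquiv j M V hV).apply_symm_apply _))).symm
        rw [h1, ψ.smul, sPull_smul, sRes_smul, hs, ← CommRingCat.comp_apply,
          ← Y.presheaf.map_comp]
        exact congrArg (· • _) congr($(Y.presheaf.map_id (op O)) r)
      res := fun O O' _ h x ↦ by
        simp only [AddMonoidHom.coe_comp, AddEquiv.coe_toAddMonoidHom, Function.comp_apply,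
          sRes_sRes]
        -- restrictions commute with `sPullEquiv`
        set y := (sPullEquiv j M (j ''ᵁ O) (j.image_le_opensRange O)).symm
          (sRes _ (j.preimage_image_eq O).le x) with hy
        have h1 : (sPullEquiv j M (j ''ᵁ O') (j.image_le_opensRange O')).symm
            (sRes _ ((j.preimage_image_eq O').le.trans h) x) = sRes M (j.image_mono h) y := by
          rw [AddEquiv.symm_apply_eq]
          refine Eq.trans ?_ (sPull_sRes j M (j.image_mono h) y).symm
          rw [show sPull j M (j ''ᵁ O) y = sRes _ (j.preimage_image_eq O).le x from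
            (sPullEquiv j M _ (j.image_le_opensRange O)).apply_symm_apply _, sRes_sRes]
        rw [h1, ← ψ.res _ _ ((j.image_le_opensRange O).trans hj) (j.image_mono h), sPull_sRes,
          sRes_sRes] }

/-- The morphism of pullbacks acts on pulled back sections as the given one. -/
lemma toPullback_sPull (j : Y ⟶ X) [IsOpenImmersion j] (hj : j.opensRange ≤ W)
    (ψ : SecHom M N W) (V : X.Opens) (hV : V ≤ j.opensRange) (x : Γ(M, V)) :
    (toPullback j hj ψ).app (j ⁻¹ᵁ V) (sPull j M V x) =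
      sPull j N V (ψ.app V (hV.trans hj) x) := by
  rw [toPullback, toHom_app]
  simp only [AddMonoidHom.coe_comp, AddEquiv.coe_toAddMonoidHom, Function.comp_apply]
  set V' := j ''ᵁ (j ⁻¹ᵁ V)
  have hV' : V' ≤ V := j.image_preimage_le V
  have h1 : (sPullEquiv j M V' (j.image_le_opensRange _)).symm
      (sRes _ (j.preimage_image_eq (j ⁻¹ᵁ V)).le (sPull j M V x)) = sRes M hV' x := by
    rw [AddEquiv.symm_apply_eq]
    exact (sPull_sRes j M hV' x).symm
  rw [h1, ← ψ.res _ _ (hV.trans hj) hV', sPull_sRes, sRes_sRes, sRes_self]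

variable {M' N' : Y.Modules} {W₀ : Y.Opens}

/-- A map of pullbacks along `j` as a map of pullbacks along `i` after `f`, for a commutative
square `φ ≫ j = i ≫ f`. -/
def conjMap {Z W : Scheme.{u}} (f : X ⟶ Y) (i : Z ⟶ X) (φ : Z ⟶ W) (j : W ⟶ Y)
    (h : φ ≫ j = i ≫ f)
    (τ : (Scheme.Modules.pullback j).obj M' ⟶ (Scheme.Modules.pullback j).obj N') :
    (Scheme.Modules.pullback i).obj ((Scheme.Modules.pullback f).obj M') ⟶
      (Scheme.Modules.pullback i).obj ((Scheme.Modules.pullback f).obj N') :=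
  (Scheme.Modules.pullbackComp i f).hom.app M' ≫
    (Scheme.Modules.pullbackCongr h.symm).hom.app M' ≫
    (Scheme.Modules.pullbackComp φ j).inv.app M' ≫
    (Scheme.Modules.pullback φ).map τ ≫
    (Scheme.Modules.pullbackComp φ j).hom.app N' ≫
    (Scheme.Modules.pullbackCongr h).hom.app N' ≫
    (Scheme.Modules.pullbackComp i f).inv.app N'

/-- Pullback of a morphism given over an open. -/
def pullback (f : X ⟶ Y) (ψ : SecHom M' N' W₀) :
    SecHom ((Scheme.Modules.pullback f).obj M') ((Scheme.Modules.pullback f).obj N')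
      (f ⁻¹ᵁ W₀) :=
  (SecHom.ofPullback (f ⁻¹ᵁ W₀).ι
    (conjMap f _ _ _ (morphismRestrict_ι f W₀)
      (toPullback W₀.ι (Scheme.Opens.opensRange_ι W₀).le ψ))).restrict
    (Scheme.Opens.opensRange_ι _).ge

/-- Transport along an equality of morphisms preserves a relation between pulled back sections. -/
lemma congr_conj_sPull {Z : Scheme.{u}} {a b : Z ⟶ Y} (h : a = b) (U : Y.Opens)
    (θ : (Scheme.Modules.pullback b).obj M' ⟶ (Scheme.Modules.pullback b).obj N') (x : Γ(M', U))
    (y : Γ(N', U)) (hθ : θ.app (b ⁻¹ᵁ U) (sPull b M' U x) = sPull b N' U y) :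
    ((Scheme.Modules.pullbackCongr h).hom.app M' ≫ θ ≫
        (Scheme.Modules.pullbackCongr h.symm).hom.app N').app (a ⁻¹ᵁ U) (sPull a M' U x) =
      sPull a N' U y := by
  subst h
  simp [Scheme.Modules.pullbackCongr]
  exact hθ

/-- The chase behind `pullback_sPull`, for arbitrary schemes over `X` and `Y`. -/
private lemma conj_sPull {Z W : Scheme.{u}} (f : X ⟶ Y) (i : Z ⟶ X) (φ : Z ⟶ W) (j : W ⟶ Y)
    (h : φ ≫ j = i ≫ f)
    (τ : (Scheme.Modules.pullback j).obj M' ⟶ (Scheme.Modules.pullback j).obj N') (U : Y.Opens)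
    (x : Γ(M', U)) (y : Γ(N', U)) (hτ : τ.app (j ⁻¹ᵁ U) (sPull j M' U x) = sPull j N' U y) :
    (conjMap f i φ j h τ).app (i ⁻¹ᵁ f ⁻¹ᵁ U)
        (sPull i _ (f ⁻¹ᵁ U) (sPull f M' U x)) =
      sPull i _ (f ⁻¹ᵁ U) (sPull f N' U y) := by
  simp only [conjMap, Scheme.Modules.Hom.comp_app, AddCommGrpCat.hom_comp, AddMonoidHom.coe_comp,
    Function.comp_apply]
  apply (ConcreteCategory.bijective_of_isIso
    (((Scheme.Modules.pullbackComp i f).hom.app N').app (i ⁻¹ᵁ f ⁻¹ᵁ U))).1
  rw [sPull_comp, sPull_comp]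
  have hinv : ∀ z, ((Scheme.Modules.pullbackComp i f).hom.app N').app (i ⁻¹ᵁ f ⁻¹ᵁ U)
      (((Scheme.Modules.pullbackComp i f).inv.app N').app (i ⁻¹ᵁ f ⁻¹ᵁ U) z) = z := fun z ↦
    congr($(congrArg (fun θ : (Scheme.Modules.pullback (i ≫ f)).obj N' ⟶
      (Scheme.Modules.pullback (i ≫ f)).obj N' ↦ θ.app (i ⁻¹ᵁ f ⁻¹ᵁ U))
        ((Scheme.Modules.pullbackComp i f).inv_hom_id_app N')) z)
  refine (hinv _).trans ?_
  have hinv' : ∀ z, ((Scheme.Modules.pullbackComp φ j).inv.app M').app (φ ⁻¹ᵁ j ⁻¹ᵁ U)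
      (((Scheme.Modules.pullbackComp φ j).hom.app M').app (φ ⁻¹ᵁ j ⁻¹ᵁ U) z) = z := fun z ↦
    congr($(congrArg (fun θ : (Scheme.Modules.pullback φ).obj ((Scheme.Modules.pullback j).obj M') ⟶
      (Scheme.Modules.pullback φ).obj ((Scheme.Modules.pullback j).obj M') ↦
        θ.app (φ ⁻¹ᵁ j ⁻¹ᵁ U))
        ((Scheme.Modules.pullbackComp φ j).hom_inv_id_app M')) z)
  refine congr_conj_sPull h.symm U
    ((Scheme.Modules.pullbackComp φ j).inv.app M' ≫
      (Scheme.Modules.pullback φ).map τ ≫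
      (Scheme.Modules.pullbackComp φ j).hom.app N') x y ?_
  have e1 := hinv' (sPull φ _ (j ⁻¹ᵁ U) (sPull j M' U x))
  rw [sPull_comp] at e1
  have e2 := sPull_natural φ τ (j ⁻¹ᵁ U) (sPull j M' U x)
  rw [hτ] at e2
  exact ((congrArg (fun z ↦ ((Scheme.Modules.pullbackComp φ j).hom.app N').app (φ ⁻¹ᵁ j ⁻¹ᵁ U)
    (((Scheme.Modules.pullback φ).map τ).app (φ ⁻¹ᵁ j ⁻¹ᵁ U) z)) e1).trans
    ((congrArg (fun z ↦ ((Scheme.Modules.pullbackComp φ j).hom.app N').app (φ ⁻¹ᵁ j ⁻¹ᵁ U) z)
      e2).trans (sPull_comp φ j N' U y)))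

/-- Pullback of a morphism on sections commutes with pullback of sections. -/
lemma pullback_sPull (f : X ⟶ Y) (ψ : SecHom M' N' W₀) (U : Y.Opens) (hU : U ≤ W₀)
    (x : Γ(M', U)) :
    (pullback f ψ).app (f ⁻¹ᵁ U) (f.preimage_mono hU) (sPull f M' U x) =
      sPull f N' U (ψ.app U hU x) := by
  apply (sPull_bijective_of_isOpenImmersion (f ⁻¹ᵁ W₀).ι _ (f ⁻¹ᵁ U)
    ((f.preimage_mono hU).trans (Scheme.Opens.opensRange_ι _).ge)).1
  rw [pullback, restrict_app, sPull_ofPullback]
  exact conj_sPull f _ _ _ (morphismRestrict_ι f W₀) _ U x _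
    (toPullback_sPull W₀.ι _ ψ U (hU.trans (Scheme.Opens.opensRange_ι W₀).ge) x)

/-- Morphisms out of a pullback are determined on pulled back generators. -/
theorem ext_pullback (f : X ⟶ Y) (hM : GenOn M' W₀) {P : X.Modules}
    {ψ ψ' : SecHom ((Scheme.Modules.pullback f).obj M') P (f ⁻¹ᵁ W₀)}
    (h : ∀ U (hU : U ≤ W₀) (s : Γ(M', U)), IsGen M' U s →
      ψ.app (f ⁻¹ᵁ U) (f.preimage_mono hU) (sPull f M' U s) =
        ψ'.app (f ⁻¹ᵁ U) (f.preimage_mono hU) (sPull f M' U s)) : ψ = ψ' := by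
  let ι : Type u := {U : Y.Opens // ∃ (s : Γ(M', U)), U ≤ W₀ ∧ IsGen M' U s}
  refine SecHom.ext_of_cover (fun U : ι ↦ f ⁻¹ᵁ U.1) ?_ ?_
  · intro x hx
    obtain ⟨U, s, hxU, hUW, hs⟩ := hM (f x) hx
    exact Opens.mem_iSup.mpr ⟨⟨U, s, hUW, hs⟩, hxU⟩
  rintro ⟨U, s, hUW, hs⟩ V hV hVU x
  obtain ⟨r, hr⟩ := ((hs.sPull f) V hVU).2 x
  simp only at hr
  rw [← hr, ψ.smul, ψ'.smul, ← ψ.res _ _ (f.preimage_mono hUW) hVU,
    ← ψ'.res _ _ (f.preimage_mono hUW) hVU, h U hUW s hs]

end Pullback

end SecHom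

end

end Fermat.PIC
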